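import Mathlib
import Fermat.Agent.LT.T6.Spec
import Fermat.Agent.LT.H11.LC
import Fermat.Agent.LT.H11.SC

/-!
# Row LT, tower T7, leaf C2.7.4 `HaarSplitC305` (helper53, SPARE): the local groups

OFF-MAIN.  Mathlib + the definition `T6.InU` + the assets `LT/H11/LC.lean`, `LT/H11/SC.lean`
(helper11).  For a finite place `v` of a number field: the congruence subgroups `U(n)` of
`GL₂(K_v)` are open, closed and compact, `U(0) = GL₂(𝒪_v)`; `GL₂(K_v)` and `GL₂(ℂ)` are locally
compact, Hausdorff and second countable.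
-/

set_option autoImplicit false
set_option linter.style.haveILetI false
set_option linter.unusedSectionVars false

open IsDedekindDomain NumberField WithZero Topology

noncomputable section

namespace Fermat.Agent.LT.T7.H53

open Fermat.Agent.LT

variable {K : Type} [Field K] [NumberField K] (v : HeightOneSpectrum (𝓞 K))

/-! ## Balls of `K_v` -/

theorem exists_val_eq_exp53 (n : ℕ) :
    ∃ c : v.adicCompletion K, c ≠ 0 ∧ Valued.v c = exp (-(n : ℤ)) := by
  obtain ⟨π, hπ⟩ := v.valuation_exists_uniformizer K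
  have h1 : Valued.v ((π : v.adicCompletion K)) = exp (-1 : ℤ) := by
    rw [HeightOneSpectrum.valuedAdicCompletion_eq_valuation', hπ]
  have hπ0 : (π : v.adicCompletion K) ≠ 0 := by
    intro h0
    rw [h0, map_zero] at h1
    exact exp_ne_zero h1.symm
  refine ⟨(π : v.adicCompletion K) ^ n, pow_ne_zero n hπ0, ?_⟩
  rw [map_pow, h1, ← exp_nsmul]
  congr 1
  simp

theorem ball_eq_preimage53 (a : v.adicCompletion K) (n : ℕ) {c : v.adicCompletion K}
    (hc0 : c ≠ 0) (hc : Valued.v c = exp (-(n : ℤ))) :
    {x : v.adicCompletion K | Valued.v (x - a) ≤ exp (-(n : ℤ))}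
      = (fun x : v.adicCompletion K => (x - a) * c⁻¹) ⁻¹'
          (v.adicCompletionIntegers K : Set (v.adicCompletion K)) := by
  ext x
  have hv0 : Valued.v c ≠ 0 := (Valuation.ne_zero_iff _).2 hc0
  simp only [Set.mem_ofPred_eq, Set.mem_preimage, SetLike.mem_coe,
    HeightOneSpectrum.mem_adicCompletionIntegers, map_mul, map_inv₀]
  rw [← hc, ← div_eq_mul_inv, div_le_one₀ (zero_lt_iff.2 hv0)]

theorem isOpen_ball53 (a : v.adicCompletion K) (n : ℕ) :
    IsOpen {x : v.adicCompletion K | Valued.v (x - a) ≤ exp (-(n : ℤ))} := by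
  obtain ⟨c, hc0, hc⟩ := exists_val_eq_exp53 v n
  rw [ball_eq_preimage53 v a n hc0 hc]
  exact (Valued.isOpen_valuationSubring (v.adicCompletion K)).preimage
    ((continuous_id.sub continuous_const).mul continuous_const)

theorem isClosed_ball53 (a : v.adicCompletion K) (n : ℕ) :
    IsClosed {x : v.adicCompletion K | Valued.v (x - a) ≤ exp (-(n : ℤ))} := by
  obtain ⟨c, hc0, hc⟩ := exists_val_eq_exp53 v n
  rw [ball_eq_preimage53 v a n hc0 hc]
  exact (Valued.isClosed_valuationSubring (v.adicCompletion K)).preimage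
    ((continuous_id.sub continuous_const).mul continuous_const)

/-! ## The topology of `GL₂(K_v)` and of `GL₂(ℂ)` -/

theorem locallyCompact_GLv53 : LocallyCompactSpace (GL (Fin 2) (v.adicCompletion K)) :=
  H11.LC.locallyCompactSpace_GL2_adicCompletion_h11 K v

theorem secondCountable_GLv53 : SecondCountableTopology (GL (Fin 2) (v.adicCompletion K)) := by
  have := H11.SC.secondCountableTopology_adicCompletion_h11 K v
  have := H11.SC.secondCountableTopology_matrix_h11 (Fin 2) (v.adicCompletion K)
  exact H11.SC.secondCountableTopology_units_h11 _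

theorem t2_GLv53 : T2Space (GL (Fin 2) (v.adicCompletion K)) := by
  have := H11.LC.t2Space_matrix_h11 (Fin 2) (v.adicCompletion K)
  infer_instance

theorem locallyCompact_GLC53 : LocallyCompactSpace (GL (Fin 2) ℂ) := by
  have := H11.LC.locallyCompactSpace_matrix_h11 (Fin 2) ℂ
  have := H11.LC.t2Space_matrix_h11 (Fin 2) ℂ
  infer_instance

theorem secondCountable_GLC53 : SecondCountableTopology (GL (Fin 2) ℂ) := by
  have := H11.SC.secondCountableTopology_matrix_h11 (Fin 2) ℂ
  exact H11.SC.secondCountableTopology_units_h11 _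

theorem t2_GLC53 : T2Space (GL (Fin 2) ℂ) := by
  have := H11.LC.t2Space_matrix_h11 (Fin 2) ℂ
  infer_instance

theorem continuous_entry53 {R : Type*} [CommRing R] [TopologicalSpace R] [IsTopologicalRing R]
    (i j : Fin 2) : Continuous fun g : GL (Fin 2) R => (g : Matrix (Fin 2) (Fin 2) R) i j :=
  (Units.continuous_val (M := Matrix (Fin 2) (Fin 2) R)).matrix_elem i j

theorem continuous_inv_entry53 {R : Type*} [CommRing R] [TopologicalSpace R]
    [IsTopologicalRing R] (i j : Fin 2) :
    Continuous fun g : GL (Fin 2) R => ((g⁻¹ : GL (Fin 2) R) : Matrix (Fin 2) (Fin 2) R) i j :=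
  (continuous_entry53 i j).comp continuous_inv

/-! ## The congruence subgroups -/

theorem inU_iff53 (n : ℕ) (g : GL (Fin 2) (v.adicCompletion K)) :
    T6.InU n g ↔ ∀ i j : Fin 2,
      (g : Matrix (Fin 2) (Fin 2) (v.adicCompletion K)) i j
          ∈ {x : v.adicCompletion K |
            Valued.v (x - (1 : Matrix (Fin 2) (Fin 2) (v.adicCompletion K)) i j)
              ≤ exp (-(n : ℤ))} ∧
        ((g⁻¹ : GL (Fin 2) (v.adicCompletion K)) :
            Matrix (Fin 2) (Fin 2) (v.adicCompletion K)) i j
          ∈ {x : v.adicCompletion K |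
            Valued.v (x - (1 : Matrix (Fin 2) (Fin 2) (v.adicCompletion K)) i j)
              ≤ exp (-(n : ℤ))} :=
  Iff.rfl

theorem setOf_inU_eq53 (n : ℕ) :
    {g : GL (Fin 2) (v.adicCompletion K) | T6.InU n g}
      = ⋂ (i : Fin 2), ⋂ (j : Fin 2),
        ((fun g : GL (Fin 2) (v.adicCompletion K) =>
            (g : Matrix (Fin 2) (Fin 2) (v.adicCompletion K)) i j) ⁻¹'
            {x : v.adicCompletion K |
              Valued.v (x - (1 : Matrix (Fin 2) (Fin 2) (v.adicCompletion K)) i j)
                ≤ exp (-(n : ℤ))}) ∩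
          ((fun g : GL (Fin 2) (v.adicCompletion K) =>
            ((g⁻¹ : GL (Fin 2) (v.adicCompletion K)) :
              Matrix (Fin 2) (Fin 2) (v.adicCompletion K)) i j) ⁻¹'
            {x : v.adicCompletion K |
              Valued.v (x - (1 : Matrix (Fin 2) (Fin 2) (v.adicCompletion K)) i j)
                ≤ exp (-(n : ℤ))}) := by
  ext g
  simp only [Set.mem_iInter, Set.mem_inter_iff, Set.mem_preimage]
  exact inU_iff53 v n g

theorem isOpen_inU53 (n : ℕ) : IsOpen {g : GL (Fin 2) (v.adicCompletion K) | T6.InU n g} := by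
  rw [setOf_inU_eq53]
  refine isOpen_iInter_of_finite fun i => isOpen_iInter_of_finite fun j => IsOpen.inter ?_ ?_
  · exact (isOpen_ball53 v _ n).preimage (continuous_entry53 i j)
  · exact (isOpen_ball53 v _ n).preimage (continuous_inv_entry53 i j)

theorem isClosed_inU53 (n : ℕ) :
    IsClosed {g : GL (Fin 2) (v.adicCompletion K) | T6.InU n g} := by
  rw [setOf_inU_eq53]
  refine isClosed_iInter fun i => isClosed_iInter fun j => IsClosed.inter ?_ ?_
  · exact (isClosed_ball53 v _ n).preimage (continuous_entry53 i j)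
  · exact (isClosed_ball53 v _ n).preimage (continuous_inv_entry53 i j)

theorem one_entry_mem_integers53 (i j : Fin 2) :
    (1 : Matrix (Fin 2) (Fin 2) (v.adicCompletion K)) i j ∈ v.adicCompletionIntegers K := by
  by_cases h : i = j
  · rw [h, Matrix.one_apply_eq]
    exact one_mem _
  · rw [Matrix.one_apply_ne h]
    exact zero_mem _

/-- `U(0) = GL₂(𝒪_v)`. -/
theorem inU_zero_iff53 (g : GL (Fin 2) (v.adicCompletion K)) :
    T6.InU 0 g ↔ (∀ i j : Fin 2,
        (g : Matrix (Fin 2) (Fin 2) (v.adicCompletion K)) i j ∈ v.adicCompletionIntegers K) ∧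
      ∀ i j : Fin 2, ((g⁻¹ : GL (Fin 2) (v.adicCompletion K)) :
        Matrix (Fin 2) (Fin 2) (v.adicCompletion K)) i j ∈ v.adicCompletionIntegers K := by
  have key : ∀ (x : v.adicCompletion K) (i j : Fin 2),
      Valued.v (x - (1 : Matrix (Fin 2) (Fin 2) (v.adicCompletion K)) i j)
          ≤ exp (-((0 : ℕ) : ℤ)) ↔ x ∈ v.adicCompletionIntegers K := by
    intro x i j
    have h1 : exp (-((0 : ℕ) : ℤ)) = (1 : ℤᵐ⁰) := by simp
    rw [h1, ← HeightOneSpectrum.mem_adicCompletionIntegers]
    constructor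
    · intro h
      have := add_mem h (one_entry_mem_integers53 v i j)
      rwa [sub_add_cancel] at this
    · intro h
      exact sub_mem h (one_entry_mem_integers53 v i j)
  constructor
  · intro h
    exact ⟨fun i j => (key _ i j).1 (h i j).1, fun i j => (key _ i j).1 (h i j).2⟩
  · intro h i j
    exact ⟨(key _ i j).2 (h.1 i j), (key _ i j).2 (h.2 i j)⟩

theorem inU_zero_of_inU53 {n : ℕ} {g : GL (Fin 2) (v.adicCompletion K)} (h : T6.InU n g) :
    T6.InU 0 g := by
  intro i j
  have hle : exp (-(n : ℤ)) ≤ exp (-((0 : ℕ) : ℤ)) := by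
    rw [exp_le_exp]
    simp
  exact ⟨(h i j).1.trans hle, (h i j).2.trans hle⟩

theorem inU_one53 (n : ℕ) : T6.InU n (1 : GL (Fin 2) (v.adicCompletion K)) := by
  intro i j
  simp

/-- `GL₂(𝒪_v)` is compact. -/
theorem isCompact_inU_zero53 :
    IsCompact {g : GL (Fin 2) (v.adicCompletion K) | T6.InU 0 g} := by
  have hO : IsCompact (v.adicCompletionIntegers K : Set (v.adicCompletion K)) :=
    H11.LC.isCompact_integers_h11 K v
  have : T2Space (Matrix (Fin 2) (Fin 2) (v.adicCompletion K)) :=
    H11.LC.t2Space_matrix_h11 (Fin 2) (v.adicCompletion K)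
  obtain ⟨B, hB⟩ : ∃ B : Set (Matrix (Fin 2) (Fin 2) (v.adicCompletion K)),
      B = {M | ∀ i j, M i j ∈ v.adicCompletionIntegers K} := ⟨_, rfl⟩
  have hBc : IsCompact B := by
    have h : IsCompact (Set.pi Set.univ (fun _ : Fin 2 =>
        Set.pi Set.univ (fun _ : Fin 2 =>
          (v.adicCompletionIntegers K : Set (v.adicCompletion K))))) :=
      isCompact_univ_pi (fun _ => isCompact_univ_pi (fun _ => hO))
    have e : B = Set.pi Set.univ (fun _ : Fin 2 =>
        Set.pi Set.univ (fun _ : Fin 2 =>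
          (v.adicCompletionIntegers K : Set (v.adicCompletion K)))) := by
      rw [hB]
      ext M
      constructor
      · intro hM i _ j _
        exact hM i j
      · intro hM i j
        exact hM i (Set.mem_univ i) j (Set.mem_univ j)
    rw [e]
    exact h
  have hop : IsCompact (MulOpposite.unop ⁻¹' B :
      Set (Matrix (Fin 2) (Fin 2) (v.adicCompletion K))ᵐᵒᵖ) := by
    have := hBc.image (MulOpposite.continuous_op)
    convert this using 1
    ext x
    simp only [Set.mem_preimage, Set.mem_image]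
    constructor
    · intro hx
      exact ⟨x.unop, hx, MulOpposite.op_unop x⟩
    · rintro ⟨y, hy, rfl⟩
      exact hy
  have hS : IsCompact ((Units.embedProduct (Matrix (Fin 2) (Fin 2) (v.adicCompletion K))) ⁻¹'
      (B ×ˢ (MulOpposite.unop ⁻¹' B))) :=
    Units.isClosedEmbedding_embedProduct.isCompact_preimage (hBc.prod hop)
  refine hS.of_isClosed_subset (isClosed_inU53 v 0) ?_
  intro g hg
  have hg' := (inU_zero_iff53 v g).1 hg
  rw [hB]
  exact ⟨fun i j => hg'.1 i j, fun i j => hg'.2 i j⟩

theorem isCompact_inU53 (n : ℕ) :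
    IsCompact {g : GL (Fin 2) (v.adicCompletion K) | T6.InU n g} :=
  (isCompact_inU_zero53 v).of_isClosed_subset (isClosed_inU53 v n)
    (fun _ hg => inU_zero_of_inU53 v hg)

theorem inU_mem_nhds53 (n : ℕ) :
    {g : GL (Fin 2) (v.adicCompletion K) | T6.InU n g} ∈ 𝓝 (1 : GL (Fin 2) (v.adicCompletion K)) :=
  (isOpen_inU53 v n).mem_nhds (inU_one53 v n)

end Fermat.Agent.LT.T7.H53

end
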