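import Mathlib
import Fermat.Agent.LT.T7.H53.HaarSplitLoc

/-!
# Row LT, tower T7, leaf PT.1 `PT563.ConvPureC563` (helper53, SPARE): the local convolution

OFF-MAIN.  Mathlib + the definitions `T6.InU`, `T6.IsBiInv`, `T6.IsConv` + `H53/HaarSplitLoc`.

* `integral_conv_of_isConv53` (GENERIC, Mathlib + `T6.IsBiInv`, `T6.IsConv`): for a left
  invariant measure `μ` on a group `Γ` and a subgroup `U` (a predicate) with `μ U = 1`:
  `∫ f(y) g(y⁻¹ a) dμ(y) = χ(a)` if `f`, `g` are bi-`U`-invariant and `χ` is the finite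
  convolution `T6.IsConv U f g χ`.
* `inU_mul53`, `inU_inv53`: `U(n)` is a subgroup of `GL₂(k)`.
* `continuous_of_isBiInv53`: a bi-`U(n)`-invariant function on `GL₂(K_v)` is continuous.
* `exists_locHaar53`: the Haar measure of `GL₂(K_v)` with `vol U(n) = 1` exists.
-/

set_option autoImplicit false
set_option linter.style.haveILetI false
set_option linter.unusedSectionVars false

open IsDedekindDomain NumberField WithZero Topology MeasureTheory

noncomputable section

namespace Fermat.Agent.LT.T7.H53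

open Fermat.Agent.LT

/-! ## 1. The generic lemma -/

section Generic

variable {Γ : Type} [Group Γ]

/-- The integrand of the convolution is right `U`-invariant. -/
theorem conv_term_right_inv53 (U : Γ → Prop) (hUi : ∀ a : Γ, U a → U a⁻¹)
    (hU1 : U 1) (f g : Γ → ℂ) (hf : T6.IsBiInv U f) (hg : T6.IsBiInv U g) (a y u : Γ)
    (hu : U u) : f (y * u) * g ((y * u)⁻¹ * a) = f y * g (y⁻¹ * a) := by
  have h1 : f (y * u) = f y := by
    have := hf 1 u y hU1 hu
    rwa [one_mul] at this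
  have h2 : g ((y * u)⁻¹ * a) = g (y⁻¹ * a) := by
    have := hg u⁻¹ 1 (y⁻¹ * a) (hUi u hu) hU1
    rw [mul_one] at this
    rw [← this]
    congr 1
    group
  rw [h1, h2]

/-- **The local convolution integral is the finite convolution** (`vol U = 1`). -/
theorem integral_conv_of_isConv53 [MeasurableSpace Γ] [MeasurableMul Γ] (μ : Measure Γ)
    [μ.IsMulLeftInvariant] (U : Γ → Prop) (hU1 : U 1)
    (hUm : ∀ a b : Γ, U a → U b → U (a * b)) (hUi : ∀ a : Γ, U a → U a⁻¹)
    (hmeas : MeasurableSet {u : Γ | U u}) (hvol : μ {u : Γ | U u} = 1)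
    (f g χ : Γ → ℂ) (hf : T6.IsBiInv U f) (hg : T6.IsBiInv U g) (hc : T6.IsConv U f g χ)
    (a : Γ) : ∫ y, f y * g (y⁻¹ * a) ∂μ = χ a := by
  classical
  obtain ⟨R, hR1, hR2, hR3⟩ := hc a
  have hinv := conv_term_right_inv53 U hUi hU1 f g hf hg a
  -- the cosets
  have hcos : ∀ h : Γ, {y : Γ | U (h⁻¹ * y)} = (fun y => h⁻¹ * y) ⁻¹' {u : Γ | U u} := fun h => rfl
  have hcm : ∀ h : Γ, MeasurableSet {y : Γ | U (h⁻¹ * y)} := fun h => by
    rw [hcos]
    exact (measurable_const_mul h⁻¹) hmeas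
  have hcv : ∀ h : Γ, μ {y : Γ | U (h⁻¹ * y)} = 1 := fun h => by
    rw [hcos, measure_preimage_mul, hvol]
  -- pointwise decomposition
  have hpt : ∀ y : Γ, f y * g (y⁻¹ * a)
      = ∑ h ∈ R, Set.indicator {y : Γ | U (h⁻¹ * y)} (fun _ => f h * g (h⁻¹ * a)) y := by
    intro y
    by_cases hy : f y * g (y⁻¹ * a) = 0
    · rw [hy]
      symm
      refine Finset.sum_eq_zero fun h _ => ?_
      by_cases hm : U (h⁻¹ * y)
      · rw [Set.indicator_of_mem (show y ∈ {y : Γ | U (h⁻¹ * y)} from hm)]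
        have := hinv h (h⁻¹ * y) hm
        rw [mul_inv_cancel_left] at this
        rw [← this, hy]
      · exact Set.indicator_of_notMem (show y ∉ {y : Γ | U (h⁻¹ * y)} from hm) _
    · obtain ⟨h', hh', u, hu, hyu⟩ := hR2 y hy
      rw [Finset.sum_eq_single h']
      · have hm : U (h'⁻¹ * y) := by
          rw [hyu, inv_mul_cancel_left]
          exact hu
        rw [Set.indicator_of_mem (show y ∈ {y : Γ | U (h'⁻¹ * y)} from hm)]
        rw [hyu]
        exact hinv h' u hu
      · intro h hh hne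
        have hnm : ¬ U (h⁻¹ * y) := by
          intro hm
          apply hne
          have h1 : U (h⁻¹ * y * u⁻¹) := hUm _ _ hm (hUi u hu)
          refine hR1 h hh h' hh' ⟨h⁻¹ * y * u⁻¹, h1, ?_⟩
          rw [hyu]
          group
        exact Set.indicator_of_notMem (show y ∉ {y : Γ | U (h⁻¹ * y)} from hnm) _
      · intro hn
        exact absurd hh' hn
  have hint : ∀ h ∈ R, Integrable
      (Set.indicator {y : Γ | U (h⁻¹ * y)} (fun _ : Γ => f h * g (h⁻¹ * a))) μ := by
    intro h _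
    refine (integrable_indicator_iff (hcm h)).mpr ?_
    refine integrableOn_const ?_
    rw [hcv]
    exact ENNReal.one_ne_top
  calc ∫ y, f y * g (y⁻¹ * a) ∂μ
      = ∫ y, ∑ h ∈ R,
          Set.indicator {y : Γ | U (h⁻¹ * y)} (fun _ => f h * g (h⁻¹ * a)) y ∂μ := by
        exact integral_congr_ae (Filter.Eventually.of_forall hpt)
    _ = ∑ h ∈ R, ∫ y,
          Set.indicator {y : Γ | U (h⁻¹ * y)} (fun _ => f h * g (h⁻¹ * a)) y ∂μ :=
        integral_finsetSum R hint
    _ = ∑ h ∈ R, f h * g (h⁻¹ * a) := by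
        refine Finset.sum_congr rfl fun h _ => ?_
        rw [integral_indicator_const _ (hcm h), Measure.real, hcv, ENNReal.toReal_one, one_smul]
    _ = χ a := hR3.symm

end Generic

/-! ## 2. `U(n)` is a subgroup -/

section Sub

variable {k : Type} [Field k] [Valued k T6.Γ₀]

theorem inU_inv53 {n : ℕ} {g : GL (Fin 2) k} (hg : T6.InU n g) : T6.InU n g⁻¹ := by
  intro i j
  refine ⟨(hg i j).2, ?_⟩
  rw [inv_inv]
  exact (hg i j).1

theorem sub_one_mul_entry53 (A B : Matrix (Fin 2) (Fin 2) k) (i j : Fin 2) :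
    (A * B) i j - (1 : Matrix (Fin 2) (Fin 2) k) i j
      = (A i j - (1 : Matrix (Fin 2) (Fin 2) k) i j)
        + (B i j - (1 : Matrix (Fin 2) (Fin 2) k) i j)
        + ∑ l : Fin 2, (A i l - (1 : Matrix (Fin 2) (Fin 2) k) i l)
            * (B l j - (1 : Matrix (Fin 2) (Fin 2) k) l j) := by
  have h : A * B - 1 = (A - 1) + (B - 1) + (A - 1) * (B - 1) := by
    noncomm_ring
  have h2 := congrFun (congrFun h i) j
  simpa [Matrix.mul_apply, Matrix.sub_apply, Matrix.add_apply] using h2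

theorem val_entry_mul_le53 {n : ℕ} {A B : Matrix (Fin 2) (Fin 2) k}
    (hA : ∀ i j : Fin 2, Valued.v (A i j - (1 : Matrix (Fin 2) (Fin 2) k) i j)
      ≤ WithZero.exp (-(n : ℤ)))
    (hB : ∀ i j : Fin 2, Valued.v (B i j - (1 : Matrix (Fin 2) (Fin 2) k) i j)
      ≤ WithZero.exp (-(n : ℤ))) (i j : Fin 2) :
    Valued.v ((A * B) i j - (1 : Matrix (Fin 2) (Fin 2) k) i j)
      ≤ WithZero.exp (-(n : ℤ)) := by
  have hle : (WithZero.exp (-(n : ℤ)) : T6.Γ₀) ≤ 1 := by
    have : (WithZero.exp (-(n : ℤ)) : T6.Γ₀) ≤ WithZero.exp (0 : ℤ) := by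
      rw [WithZero.exp_le_exp]
      simp
    simpa using this
  rw [sub_one_mul_entry53]
  refine Valuation.map_add_le _ (Valuation.map_add_le _ (hA i j) (hB i j)) ?_
  refine Valuation.map_sum_le _ fun l _ => ?_
  rw [map_mul]
  calc Valued.v (A i l - (1 : Matrix (Fin 2) (Fin 2) k) i l)
        * Valued.v (B l j - (1 : Matrix (Fin 2) (Fin 2) k) l j)
      ≤ WithZero.exp (-(n : ℤ)) * 1 := mul_le_mul' (hA i l) ((hB l j).trans hle)
    _ = WithZero.exp (-(n : ℤ)) := mul_one _

theorem inU_mul53 {n : ℕ} {g h : GL (Fin 2) k} (hg : T6.InU n g) (hh : T6.InU n h) :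
    T6.InU n (g * h) := by
  intro i j
  constructor
  · have := val_entry_mul_le53 (n := n) (A := (g : Matrix (Fin 2) (Fin 2) k))
      (B := (h : Matrix (Fin 2) (Fin 2) k)) (fun i j => (hg i j).1) (fun i j => (hh i j).1) i j
    simpa using this
  · have := val_entry_mul_le53 (n := n)
      (A := ((h⁻¹ : GL (Fin 2) k) : Matrix (Fin 2) (Fin 2) k))
      (B := ((g⁻¹ : GL (Fin 2) k) : Matrix (Fin 2) (Fin 2) k))
      (fun i j => (hh i j).2) (fun i j => (hg i j).2) i j
    rw [mul_inv_rev]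
    simpa using this

theorem inU_one'53 (n : ℕ) : T6.InU n (1 : GL (Fin 2) k) := by
  intro i j
  simp

end Sub

/-! ## 3. The local groups `GL₂(K_v)` -/

section Loc

variable {K : Type} [Field K] [NumberField K] (v : HeightOneSpectrum (𝓞 K))

/-- A function which is right invariant under `U(n)` is continuous. -/
theorem continuous_of_isBiInv53 (n : ℕ) (f : GL (Fin 2) (v.adicCompletion K) → ℂ)
    (hf : T6.IsBiInv (T6.InU n) f) : Continuous f := by
  refine (IsLocallyConstant.iff_exists_open f).2 (fun x => ?_) |>.continuous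
  refine ⟨(fun y => x⁻¹ * y) ⁻¹' {g | T6.InU n g},
    (isOpen_inU53 v n).preimage (continuous_const.mul continuous_id), ?_, ?_⟩
  · change T6.InU n (x⁻¹ * x)
    rw [inv_mul_cancel]
    exact inU_one53 v n
  · intro y hy
    have := hf 1 (x⁻¹ * y) x (inU_one53 v n) hy
    rw [one_mul, mul_inv_cancel_left] at this
    exact this

/-- **The Haar measure of `GL₂(K_v)` with `vol U(n) = 1`.** -/
theorem exists_locHaar53 (n : ℕ) :
    ∃ μ : @Measure (GL (Fin 2) (v.adicCompletion K)) (borel _),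
      @Measure.IsHaarMeasure _ _ _ (borel _) μ ∧ μ {g | T6.InU n g} = 1 := by
  letI : MeasurableSpace (GL (Fin 2) (v.adicCompletion K)) := borel _
  haveI : BorelSpace (GL (Fin 2) (v.adicCompletion K)) := ⟨rfl⟩
  haveI : LocallyCompactSpace (GL (Fin 2) (v.adicCompletion K)) := locallyCompact_GLv53 v
  haveI : T2Space (GL (Fin 2) (v.adicCompletion K)) := t2_GLv53 v
  let K₀ : TopologicalSpace.PositiveCompacts (GL (Fin 2) (v.adicCompletion K)) :=
    ⟨⟨{g | T6.InU n g}, isCompact_inU53 v n⟩, by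
      refine ⟨1, ?_⟩
      rw [mem_interior_iff_mem_nhds]
      exact inU_mem_nhds53 v n⟩
  refine ⟨Measure.haarMeasure K₀, inferInstance, ?_⟩
  exact Measure.haarMeasure_self (K₀ := K₀)

end Loc

end Fermat.Agent.LT.T7.H53

end
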