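import Mathlib

/-!
# Row LT, tower T7, asset for C2.7.4 `HaarSplitC305` / C2.7.5 `TorSplitC305` (helper53):
# the image of a Haar measure restricted to an open subgroup -- MATHLIB ONLY

OFF-MAIN.  Generic, no definition of the towers is used.

* `isHaarMeasure_map_restrict53`: `G`, `L` topological groups with their Borel σ-algebras, `μ` a
  Haar measure of `G`, `H ≤ G` an open subgroup, `π : G →* L` continuous with `π(H) = L`, and
  `H ∩ π⁻¹(N)` contained in a compact set for ONE compact neighbourhood `N` of `1` in `L`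
  (properness at `1`).  Then `π_* (μ|_H)` is a Haar measure of `L`.
* `map_restrict_eq_smul53`: if moreover `L` is locally compact and second countable and `ν'` is
  a Haar measure of `L`, then `π_* (μ|_H) = c • ν'` with `c = μ(H ∩ π⁻¹ A) / ν'(A)` for every
  measurable `A` with `0 < ν'(A) < ∞`.
-/

set_option autoImplicit false

open MeasureTheory Topology

noncomputable section

namespace Fermat.Agent.LT.T7.H53

variable {G L : Type*} [Group G] [TopologicalSpace G] [IsTopologicalGroup G]
  [MeasurableSpace G] [BorelSpace G]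
  [Group L] [TopologicalSpace L] [IsTopologicalGroup L] [T2Space L]
  [MeasurableSpace L] [BorelSpace L]

/-- The restriction of a left invariant measure to a subgroup is invariant under the left
translations by the elements of the subgroup. -/
theorem map_mul_left_restrict53 (μ : Measure G) [μ.IsMulLeftInvariant] (H : Subgroup G)
    (hH : MeasurableSet (H : Set G)) {h : G} (hh : h ∈ H) :
    Measure.map (fun x => h * x) (μ.restrict (H : Set G)) = μ.restrict (H : Set G) := by
  have hpre : (fun x => h * x) ⁻¹' (H : Set G) = (H : Set G) := by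
    ext x
    simp only [Set.mem_preimage, SetLike.mem_coe]
    exact H.mul_mem_cancel_left hh
  have h1 := Measure.restrict_map (μ := μ) (measurable_const_mul h) hH
  rw [hpre, map_mul_left_eq_self] at h1
  exact h1.symm

/-- **The image of a Haar measure restricted to an open subgroup is a Haar measure.** -/
theorem isHaarMeasure_map_restrict53 (μ : Measure G) [μ.IsHaarMeasure] (H : Subgroup G)
    (hH : IsOpen (H : Set G)) (π : G →* L) (hπ : Continuous π)
    (hsurj : ∀ l : L, ∃ h ∈ H, π h = l)
    (N : Set L) (hN : IsCompact N) (hN1 : N ∈ 𝓝 (1 : L))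
    (C : Set G) (hC : IsCompact C) (hNC : (H : Set G) ∩ π ⁻¹' N ⊆ C) :
    (Measure.map π (μ.restrict (H : Set G))).IsHaarMeasure := by
  have hπm : Measurable π := hπ.measurable
  have hHm : MeasurableSet (H : Set G) := hH.measurableSet
  have hinv : (Measure.map π (μ.restrict (H : Set G))).IsMulLeftInvariant := by
    refine ⟨fun l => ?_⟩
    obtain ⟨h, hh, rfl⟩ := hsurj l
    rw [Measure.map_map (measurable_const_mul _) hπm]
    have hcomp : (fun x => π h * x) ∘ π = π ∘ fun x => h * x := by
      funext x
      simp only [Function.comp_apply, map_mul]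
    rw [hcomp, ← Measure.map_map hπm (measurable_const_mul h),
      map_mul_left_restrict53 μ H hHm hh]
  have hval : ∀ A : Set L, MeasurableSet A →
      Measure.map π (μ.restrict (H : Set G)) A = μ ((H : Set G) ∩ π ⁻¹' A) := by
    intro A hA
    rw [Measure.map_apply hπm hA, Measure.restrict_apply (hπm hA), Set.inter_comm]
  have hNm : MeasurableSet N := hN.isClosed.measurableSet
  refine Measure.isHaarMeasure_of_isCompact_nonempty_interior _ N hN ?_ ?_ ?_
  · exact ⟨1, mem_interior_iff_mem_nhds.2 hN1⟩
  · rw [hval N hNm]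
    have hopen : IsOpen ((H : Set G) ∩ π ⁻¹' interior N) :=
      hH.inter (isOpen_interior.preimage hπ)
    have hne : ((H : Set G) ∩ π ⁻¹' interior N).Nonempty :=
      ⟨1, H.one_mem, by
        show π 1 ∈ interior N
        rw [map_one]
        exact mem_interior_iff_mem_nhds.2 hN1⟩
    have hpos := hopen.measure_pos μ hne
    have hsub : (H : Set G) ∩ π ⁻¹' interior N ⊆ (H : Set G) ∩ π ⁻¹' N :=
      Set.inter_subset_inter_right _ (Set.preimage_mono interior_subset)
    exact (lt_of_lt_of_le hpos (measure_mono hsub)).ne'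
  · rw [hval N hNm]
    exact (lt_of_le_of_lt (measure_mono hNC) hC.measure_lt_top).ne

/-- **The image of a Haar measure restricted to an open subgroup against a Haar measure of the
target**, with the constant. -/
theorem map_restrict_eq_smul53 [LocallyCompactSpace L] [SecondCountableTopology L]
    (μ : Measure G) [μ.IsHaarMeasure] (H : Subgroup G)
    (hH : IsOpen (H : Set G)) (π : G →* L) (hπ : Continuous π)
    (hsurj : ∀ l : L, ∃ h ∈ H, π h = l)
    (N : Set L) (hN : IsCompact N) (hN1 : N ∈ 𝓝 (1 : L))
    (C : Set G) (hC : IsCompact C) (hNC : (H : Set G) ∩ π ⁻¹' N ⊆ C)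
    (ν' : Measure L) [ν'.IsHaarMeasure] (A : Set L) (hA : MeasurableSet A)
    (h0 : ν' A ≠ 0) (h1 : ν' A ≠ ⊤) :
    Measure.map π (μ.restrict (H : Set G))
      = ENNReal.ofReal ((μ ((H : Set G) ∩ π ⁻¹' A)).toReal / (ν' A).toReal) • ν' := by
  have hπm : Measurable π := hπ.measurable
  have hHaar : (Measure.map π (μ.restrict (H : Set G))).IsHaarMeasure :=
    isHaarMeasure_map_restrict53 μ H hH π hπ hsurj N hN hN1 C hC hNC
  obtain ⟨s, heq⟩ : ∃ s : NNReal, Measure.map π (μ.restrict (H : Set G)) = s • ν' :=
    ⟨_, Measure.isMulLeftInvariant_eq_smul (Measure.map π (μ.restrict (H : Set G))) ν'⟩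
  have hvalA : Measure.map π (μ.restrict (H : Set G)) A = μ ((H : Set G) ∩ π ⁻¹' A) := by
    rw [Measure.map_apply hπm hA, Measure.restrict_apply (hπm hA), Set.inter_comm]
  have hA2 : μ ((H : Set G) ∩ π ⁻¹' A) = (s : ENNReal) * ν' A := by
    rw [← hvalA, heq, Measure.smul_apply]
    rfl
  have hreal : (μ ((H : Set G) ∩ π ⁻¹' A)).toReal = (s : ℝ) * (ν' A).toReal := by
    rw [hA2, ENNReal.toReal_mul]
    rfl
  have hpos : 0 < (ν' A).toReal := ENNReal.toReal_pos h0 h1
  have hc : (μ ((H : Set G) ∩ π ⁻¹' A)).toReal / (ν' A).toReal = (s : ℝ) := by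
    rw [hreal]
    field_simp
  rw [hc, heq, ENNReal.ofReal_coe_nnreal]
  rfl

end Fermat.Agent.LT.T7.H53

end
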