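import Mathlib
import Fermat.Agent.LT.T7.H305.MatchCut
import Fermat.Agent.LT.T1.H919.K0Compact
import Fermat.Agent.LT.T7.H53.HaarSplitLoc

/-!
# Row LT, tower T7, leaf C2.7.4 `HaarSplitC305` (helper53, SPARE): the adelic topology

OFF-MAIN.  For a finite set `S` of finite places of a number field `K`:
* `outSub53 S` = `{y : OutT305 S y}` is an OPEN subgroup of `GL₂(𝔸_K)`;
* `piS53 S : GL₂(𝔸_K) →* ∏_{v ∈ S} GL₂(K_v) × ∏_w GL₂(ℂ)` is a continuous homomorphism
  (`= H305.compS305 S`), and maps `outSub53 S` ONTO the target if `K` is totally complex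
  (`exists_section53`);
* the elements of `GL₂(𝔸_K)` which are in `GL₂(𝒪_v)` at all finite places and whose components
  at the infinite places have entries (and entries of the inverse) of norm `≤ 2` form a compact
  set (`isCompact_bigBox53`).
-/

set_option autoImplicit false
set_option linter.style.haveILetI false
set_option linter.unusedSectionVars false

open IsDedekindDomain NumberField WithZero Topology
open Fermat.Agent.LT.H556.A0

noncomputable section

namespace Fermat.Agent.LT.T7.H53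

open Fermat.Agent.LT Fermat.Agent.LT.T7

variable {K : Type} [Field K] [NumberField K]

/-! ## 1. Components -/

theorem finGL_coe53 (v : HeightOneSpectrum (𝓞 K)) (g : G K) :
    ((H305.finGL305 v g : GL (Fin 2) (v.adicCompletion K)) :
      Matrix (Fin 2) (Fin 2) (v.adicCompletion K)) = finComp v g := rfl

theorem infGL_coe53 (w : InfinitePlace K) (g : G K) :
    ((H305.infGL305 w g : GL (Fin 2) ℂ) : Matrix (Fin 2) (Fin 2) ℂ) = infComp w g := rfl

theorem finGL_inv_coe53 (v : HeightOneSpectrum (𝓞 K)) (g : G K) :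
    (((H305.finGL305 v g)⁻¹ : GL (Fin 2) (v.adicCompletion K)) :
      Matrix (Fin 2) (Fin 2) (v.adicCompletion K)) = finComp v g⁻¹ := by
  rw [← map_inv]
  rfl

theorem infGL_inv_coe53 (w : InfinitePlace K) (g : G K) :
    (((H305.infGL305 w g)⁻¹ : GL (Fin 2) ℂ) : Matrix (Fin 2) (Fin 2) ℂ) = infComp w g⁻¹ := by
  rw [← map_inv]
  rfl

theorem continuous_finGL53 (v : HeightOneSpectrum (𝓞 K)) :
    Continuous (H305.finGL305 (K := K) v) := by
  rw [Units.continuous_iff]
  refine ⟨continuous_matrix fun i j => T1.H919.continuous_finComp919 v i j, ?_⟩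
  have h : Continuous (fun g : G K => finComp v g⁻¹) :=
    (continuous_matrix fun i j => T1.H919.continuous_finComp919 v i j).comp continuous_inv
  refine h.congr fun g => ?_
  exact (finGL_inv_coe53 v g).symm

theorem continuous_infGL53 (w : InfinitePlace K) :
    Continuous (H305.infGL305 (K := K) w) := by
  rw [Units.continuous_iff]
  refine ⟨T1.H919.continuous_infComp919 w, ?_⟩
  have h : Continuous (fun g : G K => infComp w g⁻¹) :=
    (T1.H919.continuous_infComp919 w).comp continuous_inv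
  refine h.congr fun g => ?_
  exact (infGL_inv_coe53 w g).symm

/-- The projection to the components at `S` and at the infinite places, as a homomorphism. -/
def piS53 (S : Finset (HeightOneSpectrum (𝓞 K))) :
    G K →* ((∀ v : S, GL (Fin 2) ((v : HeightOneSpectrum (𝓞 K)).adicCompletion K)) ×
      (InfinitePlace K → GL (Fin 2) ℂ)) :=
  MonoidHom.prod (MonoidHom.pi fun v : S => H305.finGL305 v.1)
    (MonoidHom.pi fun w : InfinitePlace K => H305.infGL305 w)

theorem piS_eq53 (S : Finset (HeightOneSpectrum (𝓞 K))) :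
    (piS53 S : G K → _) = H305.compS305 S := rfl

theorem continuous_piS53 (S : Finset (HeightOneSpectrum (𝓞 K))) : Continuous (piS53 (K := K) S) :=
  (continuous_pi fun v : S => continuous_finGL53 v.1).prodMk
    (continuous_pi fun w => continuous_infGL53 w)

/-! ## 2. The open subgroup -/

theorem finComp_mul53 (v : HeightOneSpectrum (𝓞 K)) (g h : G K) :
    finComp v (g * h) = finComp v g * finComp v h := by
  rw [← finGL_coe53, ← finGL_coe53, ← finGL_coe53, map_mul]
  rfl

theorem isIntegralAt_mul53 (v : HeightOneSpectrum (𝓞 K)) {g h : G K}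
    (hg : IsIntegralAt v g) (hh : IsIntegralAt v h) : IsIntegralAt v (g * h) := by
  intro i j
  rw [finComp_mul53, Matrix.mul_apply, Fin.sum_univ_two]
  exact add_mem (mul_mem (hg i 0) (hh 0 j)) (mul_mem (hg i 1) (hh 1 j))

theorem isIntegralAt_one53 (v : HeightOneSpectrum (𝓞 K)) : IsIntegralAt v (1 : G K) := by
  intro i j
  have h : finComp v (1 : G K) = 1 := by
    rw [← finGL_coe53, map_one]
    rfl
  rw [h]
  exact one_entry_mem_integers53 v i j

/-- `{y : y_v ∈ GL₂(𝒪_v) for v ∉ S}` as a subgroup. -/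
def outSub53 (S : Finset (HeightOneSpectrum (𝓞 K))) : Subgroup (G K) where
  carrier := {y | H305.OutT305 S y}
  mul_mem' := by
    intro a b ha hb v hv
    refine ⟨isIntegralAt_mul53 v (ha v hv).1 (hb v hv).1, ?_⟩
    rw [mul_inv_rev]
    exact isIntegralAt_mul53 v (hb v hv).2 (ha v hv).2
  one_mem' := by
    intro v _
    refine ⟨isIntegralAt_one53 v, ?_⟩
    rw [inv_one]
    exact isIntegralAt_one53 v
  inv_mem' := by
    intro a ha v hv
    refine ⟨(ha v hv).2, ?_⟩
    rw [inv_inv]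
    exact (ha v hv).1

theorem coe_outSub53 (S : Finset (HeightOneSpectrum (𝓞 K))) :
    (outSub53 S : Set (G K)) = {y | H305.OutT305 S y} := rfl

/-- The adeles which are integral outside `S` form an open set. -/
theorem isOpen_intOut53 (S : Finset (HeightOneSpectrum (𝓞 K))) :
    IsOpen {x : Adl K | ∀ v : HeightOneSpectrum (𝓞 K), v ∉ S →
      x.2 v ∈ v.adicCompletionIntegers K} := by
  have h : IsOpen {f : FiniteAdeleRing (𝓞 K) K | ∀ v : HeightOneSpectrum (𝓞 K), v ∉ S →
      f v ∈ v.adicCompletionIntegers K} :=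
    RestrictedProduct.isOpen_forall_imp_mem
      (R := fun v : HeightOneSpectrum (𝓞 K) => v.adicCompletion K)
      (A := fun v => (v.adicCompletionIntegers K : Set (v.adicCompletion K)))
      (fun _ => Valued.isOpen_valuationSubring _) (p := fun v => v ∉ S)
  exact h.preimage continuous_snd

theorem isOpen_outSub53 (S : Finset (HeightOneSpectrum (𝓞 K))) :
    IsOpen (outSub53 S : Set (G K)) := by
  have e : (outSub53 S : Set (G K))
      = ⋂ (i : Fin 2), ⋂ (j : Fin 2),
        ((fun g : G K => (g : Matrix (Fin 2) (Fin 2) (Adl K)) i j) ⁻¹'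
            {x : Adl K | ∀ v : HeightOneSpectrum (𝓞 K), v ∉ S →
              x.2 v ∈ v.adicCompletionIntegers K}) ∩
          ((fun g : G K => ((g⁻¹ : G K) : Matrix (Fin 2) (Fin 2) (Adl K)) i j) ⁻¹'
            {x : Adl K | ∀ v : HeightOneSpectrum (𝓞 K), v ∉ S →
              x.2 v ∈ v.adicCompletionIntegers K}) := by
    ext g
    simp only [coe_outSub53, Set.mem_iInter, Set.mem_inter_iff, Set.mem_preimage]
    constructor
    · intro hg i j
      exact ⟨fun v hv => (hg v hv).1 i j, fun v hv => (hg v hv).2 i j⟩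
    · intro hg v hv
      exact ⟨fun i j => (hg i j).1 v hv, fun i j => (hg i j).2 v hv⟩
  rw [e]
  refine isOpen_iInter_of_finite fun i => isOpen_iInter_of_finite fun j => IsOpen.inter ?_ ?_
  · exact (isOpen_intOut53 S).preimage (continuous_entry53 i j)
  · exact (isOpen_intOut53 S).preimage (continuous_inv_entry53 i j)

/-! ## 3. The section -/

/-- The adele with the components `a w` at the infinite places and `c v` at the finite places,
`c v` integral outside `S`. -/
def adlMkS53 (S : Finset (HeightOneSpectrum (𝓞 K))) (a : ∀ w : InfinitePlace K, w.Completion)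
    (c : ∀ v : HeightOneSpectrum (𝓞 K), v.adicCompletion K)
    (hc : ∀ v, v ∉ S → c v ∈ v.adicCompletionIntegers K) : Adl K :=
  (a, ⟨c, Filter.eventually_cofinite.2
    ((S : Set (HeightOneSpectrum (𝓞 K))).toFinite.subset fun v hv => by
      by_contra h
      exact hv (hc v h))⟩)

theorem adlMkS_inf53 (S : Finset (HeightOneSpectrum (𝓞 K)))
    (a : ∀ w : InfinitePlace K, w.Completion)
    (c : ∀ v : HeightOneSpectrum (𝓞 K), v.adicCompletion K)
    (hc : ∀ v, v ∉ S → c v ∈ v.adicCompletionIntegers K) (w : InfinitePlace K) :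
    T1.H793.projInf793 w (adlMkS53 S a c hc) = a w := rfl

theorem adlMkS_fin53 (S : Finset (HeightOneSpectrum (𝓞 K)))
    (a : ∀ w : InfinitePlace K, w.Completion)
    (c : ∀ v : HeightOneSpectrum (𝓞 K), v.adicCompletion K)
    (hc : ∀ v, v ∉ S → c v ∈ v.adicCompletionIntegers K) (v : HeightOneSpectrum (𝓞 K)) :
    T1.H793.projFin793 v (adlMkS53 S a c hc) = c v := rfl

/-- The matrix over the adeles with given components, integral outside `S`. -/
def adlMatrixMkS53 (S : Finset (HeightOneSpectrum (𝓞 K)))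
    (kw : ∀ w : InfinitePlace K, Matrix (Fin 2) (Fin 2) w.Completion)
    (kv : ∀ v : HeightOneSpectrum (𝓞 K), Matrix (Fin 2) (Fin 2) (v.adicCompletion K))
    (h1 : ∀ v, v ∉ S → ∀ i j, kv v i j ∈ v.adicCompletionIntegers K) :
    Matrix (Fin 2) (Fin 2) (Adl K) :=
  Matrix.of fun i j => adlMkS53 S (fun w => kw w i j) (fun v => kv v i j)
    (fun v hv => h1 v hv i j)

theorem adlMatrixMkS_mapInf53 (S : Finset (HeightOneSpectrum (𝓞 K)))
    (kw : ∀ w : InfinitePlace K, Matrix (Fin 2) (Fin 2) w.Completion)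
    (kv : ∀ v : HeightOneSpectrum (𝓞 K), Matrix (Fin 2) (Fin 2) (v.adicCompletion K))
    (h1 : ∀ v, v ∉ S → ∀ i j, kv v i j ∈ v.adicCompletionIntegers K) (w : InfinitePlace K) :
    (adlMatrixMkS53 S kw kv h1).map (T1.H793.projInf793 w) = kw w := by
  ext i j; rfl

theorem adlMatrixMkS_mapFin53 (S : Finset (HeightOneSpectrum (𝓞 K)))
    (kw : ∀ w : InfinitePlace K, Matrix (Fin 2) (Fin 2) w.Completion)
    (kv : ∀ v : HeightOneSpectrum (𝓞 K), Matrix (Fin 2) (Fin 2) (v.adicCompletion K))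
    (h1 : ∀ v, v ∉ S → ∀ i j, kv v i j ∈ v.adicCompletionIntegers K)
    (v : HeightOneSpectrum (𝓞 K)) :
    (adlMatrixMkS53 S kw kv h1).map (T1.H793.projFin793 v) = kv v := by
  ext i j; rfl

/-- The element of `GL₂(𝔸_K)` with the components `kw w` at the infinite places and `kv v` at
the finite places, `kv v ∈ GL₂(𝒪_v)` outside `S`. -/
def glMkS53 (S : Finset (HeightOneSpectrum (𝓞 K)))
    (kw : ∀ w : InfinitePlace K, GL (Fin 2) w.Completion)
    (kv : ∀ v : HeightOneSpectrum (𝓞 K), GL (Fin 2) (v.adicCompletion K))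
    (h1 : ∀ v, v ∉ S → ∀ i j, (kv v : Matrix (Fin 2) (Fin 2) (v.adicCompletion K)) i j
      ∈ v.adicCompletionIntegers K)
    (h2 : ∀ v, v ∉ S → ∀ i j, (((kv v)⁻¹ : GL (Fin 2) (v.adicCompletion K)) :
      Matrix (Fin 2) (Fin 2) (v.adicCompletion K)) i j ∈ v.adicCompletionIntegers K) : G K where
  val := adlMatrixMkS53 S (fun w => (kw w : Matrix (Fin 2) (Fin 2) w.Completion))
    (fun v => (kv v : Matrix (Fin 2) (Fin 2) (v.adicCompletion K))) h1
  inv := adlMatrixMkS53 S
    (fun w => (((kw w)⁻¹ : GL (Fin 2) w.Completion) : Matrix (Fin 2) (Fin 2) w.Completion))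
    (fun v => (((kv v)⁻¹ : GL (Fin 2) (v.adicCompletion K)) :
      Matrix (Fin 2) (Fin 2) (v.adicCompletion K))) h2
  val_inv := by
    refine T1.H793.adlMatrix_ext793 (fun w => ?_) (fun v => ?_)
    · rw [Matrix.map_mul, Matrix.map_one _ (map_zero _) (map_one _), adlMatrixMkS_mapInf53,
        adlMatrixMkS_mapInf53, ← Units.val_mul, mul_inv_cancel, Units.val_one]
    · rw [Matrix.map_mul, Matrix.map_one _ (map_zero _) (map_one _), adlMatrixMkS_mapFin53,
        adlMatrixMkS_mapFin53, ← Units.val_mul, mul_inv_cancel, Units.val_one]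
  inv_val := by
    refine T1.H793.adlMatrix_ext793 (fun w => ?_) (fun v => ?_)
    · rw [Matrix.map_mul, Matrix.map_one _ (map_zero _) (map_one _), adlMatrixMkS_mapInf53,
        adlMatrixMkS_mapInf53, ← Units.val_mul, inv_mul_cancel, Units.val_one]
    · rw [Matrix.map_mul, Matrix.map_one _ (map_zero _) (map_one _), adlMatrixMkS_mapFin53,
        adlMatrixMkS_mapFin53, ← Units.val_mul, inv_mul_cancel, Units.val_one]

theorem finComp_glMkS53 (S : Finset (HeightOneSpectrum (𝓞 K)))
    (kw : ∀ w : InfinitePlace K, GL (Fin 2) w.Completion)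
    (kv : ∀ v : HeightOneSpectrum (𝓞 K), GL (Fin 2) (v.adicCompletion K))
    (h1 : ∀ v, v ∉ S → ∀ i j, (kv v : Matrix (Fin 2) (Fin 2) (v.adicCompletion K)) i j
      ∈ v.adicCompletionIntegers K)
    (h2 : ∀ v, v ∉ S → ∀ i j, (((kv v)⁻¹ : GL (Fin 2) (v.adicCompletion K)) :
      Matrix (Fin 2) (Fin 2) (v.adicCompletion K)) i j ∈ v.adicCompletionIntegers K)
    (v : HeightOneSpectrum (𝓞 K)) :
    finComp v (glMkS53 S kw kv h1 h2)
      = (kv v : Matrix (Fin 2) (Fin 2) (v.adicCompletion K)) := rfl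

theorem finComp_inv_glMkS53 (S : Finset (HeightOneSpectrum (𝓞 K)))
    (kw : ∀ w : InfinitePlace K, GL (Fin 2) w.Completion)
    (kv : ∀ v : HeightOneSpectrum (𝓞 K), GL (Fin 2) (v.adicCompletion K))
    (h1 : ∀ v, v ∉ S → ∀ i j, (kv v : Matrix (Fin 2) (Fin 2) (v.adicCompletion K)) i j
      ∈ v.adicCompletionIntegers K)
    (h2 : ∀ v, v ∉ S → ∀ i j, (((kv v)⁻¹ : GL (Fin 2) (v.adicCompletion K)) :
      Matrix (Fin 2) (Fin 2) (v.adicCompletion K)) i j ∈ v.adicCompletionIntegers K)
    (v : HeightOneSpectrum (𝓞 K)) :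
    finComp v (glMkS53 S kw kv h1 h2)⁻¹
      = (((kv v)⁻¹ : GL (Fin 2) (v.adicCompletion K)) :
          Matrix (Fin 2) (Fin 2) (v.adicCompletion K)) := rfl

theorem infComp_glMkS53 (S : Finset (HeightOneSpectrum (𝓞 K)))
    (kw : ∀ w : InfinitePlace K, GL (Fin 2) w.Completion)
    (kv : ∀ v : HeightOneSpectrum (𝓞 K), GL (Fin 2) (v.adicCompletion K))
    (h1 : ∀ v, v ∉ S → ∀ i j, (kv v : Matrix (Fin 2) (Fin 2) (v.adicCompletion K)) i j
      ∈ v.adicCompletionIntegers K)
    (h2 : ∀ v, v ∉ S → ∀ i j, (((kv v)⁻¹ : GL (Fin 2) (v.adicCompletion K)) :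
      Matrix (Fin 2) (Fin 2) (v.adicCompletion K)) i j ∈ v.adicCompletionIntegers K)
    (w : InfinitePlace K) :
    infComp w (glMkS53 S kw kv h1 h2)
      = (kw w : Matrix (Fin 2) (Fin 2) w.Completion).map
          (InfinitePlace.Completion.extensionEmbedding w) := rfl

/-- **The section.**  `K` totally complex: every family of local components at `S` and at the
infinite places is the image of an element which is `1` at the finite places outside `S`. -/
theorem exists_section53 (hcx : TotCplx K) (S : Finset (HeightOneSpectrum (𝓞 K)))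
    (l : (∀ v : S, GL (Fin 2) ((v : HeightOneSpectrum (𝓞 K)).adicCompletion K)) ×
      (InfinitePlace K → GL (Fin 2) ℂ)) :
    ∃ h ∈ outSub53 S, piS53 S h = l := by
  classical
  obtain ⟨a, b⟩ := l
  -- the infinite components
  have hbij : ∀ w : InfinitePlace K,
      Function.Bijective (InfinitePlace.Completion.extensionEmbedding w) := fun w =>
    ⟨(InfinitePlace.Completion.extensionEmbedding w).injective,
      InfinitePlace.Completion.surjective_extensionEmbedding_of_isComplex (hcx w)⟩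
  obtain ⟨e, he⟩ : ∃ e : ∀ w : InfinitePlace K, w.Completion ≃+* ℂ,
      ∀ w x, e w x = InfinitePlace.Completion.extensionEmbedding w x :=
    ⟨fun w => RingEquiv.ofBijective _ (hbij w), fun _ _ => rfl⟩
  obtain ⟨kw, hkw⟩ : ∃ kw : ∀ w : InfinitePlace K, GL (Fin 2) w.Completion,
      ∀ w, Matrix.GeneralLinearGroup.map (e w).toRingHom (kw w) = b w := by
    refine ⟨fun w => Matrix.GeneralLinearGroup.map (e w).symm.toRingHom (b w), fun w => ?_⟩
    apply Units.ext
    ext i j
    simp [Matrix.GeneralLinearGroup.map]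
  obtain ⟨kv, hkv⟩ : ∃ kv : ∀ v : HeightOneSpectrum (𝓞 K), GL (Fin 2) (v.adicCompletion K),
      kv = fun v => if hv : v ∈ S then a ⟨v, hv⟩ else 1 := ⟨_, rfl⟩
  have hkvS : ∀ (v : HeightOneSpectrum (𝓞 K)) (hv : v ∈ S), kv v = a ⟨v, hv⟩ := by
    intro v hv
    rw [hkv]
    simp only [dif_pos hv]
  have hkvN : ∀ v : HeightOneSpectrum (𝓞 K), v ∉ S → kv v = 1 := by
    intro v hv
    rw [hkv]
    simp only [dif_neg hv]
  have h1 : ∀ v, v ∉ S → ∀ i j, (kv v : Matrix (Fin 2) (Fin 2) (v.adicCompletion K)) i j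
      ∈ v.adicCompletionIntegers K := by
    intro v hv i j
    rw [hkvN v hv]
    exact one_entry_mem_integers53 v i j
  have h2 : ∀ v, v ∉ S → ∀ i j, (((kv v)⁻¹ : GL (Fin 2) (v.adicCompletion K)) :
      Matrix (Fin 2) (Fin 2) (v.adicCompletion K)) i j ∈ v.adicCompletionIntegers K := by
    intro v hv i j
    rw [hkvN v hv, inv_one]
    exact one_entry_mem_integers53 v i j
  refine ⟨glMkS53 S kw kv h1 h2, ?_, ?_⟩
  · intro v hv
    refine ⟨fun i j => ?_, fun i j => ?_⟩
    · rw [finComp_glMkS53]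
      exact h1 v hv i j
    · rw [finComp_inv_glMkS53]
      exact h2 v hv i j
  · refine Prod.ext (funext fun v => ?_) (funext fun w => ?_)
    · apply Units.ext
      show ((H305.finGL305 v.1 (glMkS53 S kw kv h1 h2) :
          GL (Fin 2) ((v : HeightOneSpectrum (𝓞 K)).adicCompletion K)) :
            Matrix (Fin 2) (Fin 2) ((v : HeightOneSpectrum (𝓞 K)).adicCompletion K)) = _
      rw [finGL_coe53, finComp_glMkS53, hkvS v.1 v.2]
    · apply Units.ext
      show ((H305.infGL305 w (glMkS53 S kw kv h1 h2) : GL (Fin 2) ℂ) :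
          Matrix (Fin 2) (Fin 2) ℂ) = _
      rw [infGL_coe53, infComp_glMkS53]
      show _ = ((b w : GL (Fin 2) ℂ) : Matrix (Fin 2) (Fin 2) ℂ)
      rw [← hkw w]
      ext i j
      simp [Matrix.GeneralLinearGroup.map, he]

/-! ## 4. Compactness -/

/-- The compact neighbourhood of `1` in `GL₂(ℂ)`: the entries of `g` and of `g⁻¹` have norm
`≤ 2`. -/
def ballC53 : Set (GL (Fin 2) ℂ) :=
  {g | ∀ i j : Fin 2, ‖(g : Matrix (Fin 2) (Fin 2) ℂ) i j‖ ≤ 2 ∧
    ‖((g⁻¹ : GL (Fin 2) ℂ) : Matrix (Fin 2) (Fin 2) ℂ) i j‖ ≤ 2}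

theorem isCompact_ballC53 : IsCompact ballC53 := by
  have : T2Space (Matrix (Fin 2) (Fin 2) ℂ) := H11.LC.t2Space_matrix_h11 (Fin 2) ℂ
  obtain ⟨B, hB⟩ : ∃ B : Set (Matrix (Fin 2) (Fin 2) ℂ),
      B = {M | ∀ i j, M i j ∈ Metric.closedBall (0 : ℂ) 2} := ⟨_, rfl⟩
  have hBc : IsCompact B := by
    have h : IsCompact (Set.pi Set.univ (fun _ : Fin 2 =>
        Set.pi Set.univ (fun _ : Fin 2 => Metric.closedBall (0 : ℂ) 2))) :=
      isCompact_univ_pi (fun _ => isCompact_univ_pi (fun _ => isCompact_closedBall 0 2))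
    have e : B = Set.pi Set.univ (fun _ : Fin 2 =>
        Set.pi Set.univ (fun _ : Fin 2 => Metric.closedBall (0 : ℂ) 2)) := by
      rw [hB]
      ext M
      constructor
      · intro hM i _ j _
        exact hM i j
      · intro hM i j
        exact hM i (Set.mem_univ i) j (Set.mem_univ j)
    rw [e]
    exact h
  have hop : IsCompact (MulOpposite.unop ⁻¹' B : Set (Matrix (Fin 2) (Fin 2) ℂ)ᵐᵒᵖ) := by
    have := hBc.image (MulOpposite.continuous_op)
    convert this using 1
    ext x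
    simp only [Set.mem_preimage, Set.mem_image]
    constructor
    · intro hx
      exact ⟨x.unop, hx, MulOpposite.op_unop x⟩
    · rintro ⟨y, hy, rfl⟩
      exact hy
  have hS : IsCompact ((Units.embedProduct (Matrix (Fin 2) (Fin 2) ℂ)) ⁻¹'
      (B ×ˢ (MulOpposite.unop ⁻¹' B))) :=
    Units.isClosedEmbedding_embedProduct.isCompact_preimage (hBc.prod hop)
  have e : ballC53 = (Units.embedProduct (Matrix (Fin 2) (Fin 2) ℂ)) ⁻¹'
      (B ×ˢ (MulOpposite.unop ⁻¹' B)) := by
    rw [hB]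
    ext g
    constructor
    · intro hg
      exact ⟨fun i j => mem_closedBall_zero_iff.2 (hg i j).1,
        fun i j => mem_closedBall_zero_iff.2 (hg i j).2⟩
    · rintro ⟨h1, h2⟩ i j
      exact ⟨mem_closedBall_zero_iff.1 (h1 i j), mem_closedBall_zero_iff.1 (h2 i j)⟩
  rw [e]
  exact hS

theorem ballC_mem_nhds53 : ballC53 ∈ 𝓝 (1 : GL (Fin 2) ℂ) := by
  have hO : IsOpen (⋂ (i : Fin 2), ⋂ (j : Fin 2),
      ((fun g : GL (Fin 2) ℂ => (g : Matrix (Fin 2) (Fin 2) ℂ) i j) ⁻¹'
          Metric.ball (0 : ℂ) 2) ∩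
        ((fun g : GL (Fin 2) ℂ => ((g⁻¹ : GL (Fin 2) ℂ) : Matrix (Fin 2) (Fin 2) ℂ) i j) ⁻¹'
          Metric.ball (0 : ℂ) 2)) := by
    refine isOpen_iInter_of_finite fun i => isOpen_iInter_of_finite fun j => IsOpen.inter ?_ ?_
    · exact Metric.isOpen_ball.preimage (continuous_entry53 i j)
    · exact Metric.isOpen_ball.preimage (continuous_inv_entry53 i j)
  have h1 : ∀ i j : Fin 2, ‖(1 : Matrix (Fin 2) (Fin 2) ℂ) i j‖ < 2 := by
    intro i j
    by_cases h : i = j
    · rw [h, Matrix.one_apply_eq, norm_one]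
      norm_num
    · rw [Matrix.one_apply_ne h, norm_zero]
      norm_num
  refine Filter.mem_of_superset (hO.mem_nhds ?_) ?_
  · simp only [Set.mem_iInter, Set.mem_inter_iff, Set.mem_preimage, mem_ball_zero_iff]
    intro i j
    refine ⟨h1 i j, ?_⟩
    rw [inv_one]
    exact h1 i j
  · intro g hg
    simp only [Set.mem_iInter, Set.mem_inter_iff, Set.mem_preimage, mem_ball_zero_iff] at hg
    intro i j
    exact ⟨(hg i j).1.le, (hg i j).2.le⟩

/-- The compact set of `GL₂(𝔸_K)`: entries of `y`, `y⁻¹` in the box of radius `2`. -/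
def bigBox53 (K : Type) [Field K] [NumberField K] : Set (G K) :=
  {y | ∀ i j : Fin 2, (y : Matrix (Fin 2) (Fin 2) (Adl K)) i j ∈ T1.H919.box919 K 2 ∧
    ((y⁻¹ : G K) : Matrix (Fin 2) (Fin 2) (Adl K)) i j ∈ T1.H919.box919 K 2}

theorem isCompact_bigBox53 : IsCompact (bigBox53 K) := by
  have : T2Space (Adl K) := H11.LC.t2Space_adeleRing_h11 K
  have : T2Space (Matrix (Fin 2) (Fin 2) (Adl K)) := H11.LC.t2Space_matrix_h11 (Fin 2) (Adl K)
  obtain ⟨B, hB⟩ : ∃ B : Set (Matrix (Fin 2) (Fin 2) (Adl K)),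
      B = {M | ∀ i j, M i j ∈ T1.H919.box919 K 2} := ⟨_, rfl⟩
  have hBc : IsCompact B := by
    have h : IsCompact (Set.pi Set.univ (fun _ : Fin 2 =>
        Set.pi Set.univ (fun _ : Fin 2 => T1.H919.box919 K 2))) :=
      isCompact_univ_pi (fun _ => isCompact_univ_pi (fun _ => T1.H919.isCompact_box919 2))
    have e : B = Set.pi Set.univ (fun _ : Fin 2 =>
        Set.pi Set.univ (fun _ : Fin 2 => T1.H919.box919 K 2)) := by
      rw [hB]
      ext M
      constructor
      · intro hM i _ j _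
        exact hM i j
      · intro hM i j
        exact hM i (Set.mem_univ i) j (Set.mem_univ j)
    rw [e]
    exact h
  have hop : IsCompact (MulOpposite.unop ⁻¹' B : Set (Matrix (Fin 2) (Fin 2) (Adl K))ᵐᵒᵖ) := by
    have := hBc.image (MulOpposite.continuous_op)
    convert this using 1
    ext x
    simp only [Set.mem_preimage, Set.mem_image]
    constructor
    · intro hx
      exact ⟨x.unop, hx, MulOpposite.op_unop x⟩
    · rintro ⟨y, hy, rfl⟩
      exact hy
  have hS : IsCompact ((Units.embedProduct (Matrix (Fin 2) (Fin 2) (Adl K))) ⁻¹'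
      (B ×ˢ (MulOpposite.unop ⁻¹' B))) :=
    Units.isClosedEmbedding_embedProduct.isCompact_preimage (hBc.prod hop)
  have e : bigBox53 K = (Units.embedProduct (Matrix (Fin 2) (Fin 2) (Adl K))) ⁻¹'
      (B ×ˢ (MulOpposite.unop ⁻¹' B)) := by
    rw [hB]
    ext g
    constructor
    · intro hg
      exact ⟨fun i j => (hg i j).1, fun i j => (hg i j).2⟩
    · rintro ⟨h1, h2⟩ i j
      exact ⟨h1 i j, h2 i j⟩
  rw [e]
  exact hS

/-- THE SET `X`: in `U(m_v)` at every finite place, in `ballC53` at every infinite place. -/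
def setX53 (m : HeightOneSpectrum (𝓞 K) → ℕ) : Set (G K) :=
  {y | (∀ v : HeightOneSpectrum (𝓞 K), T6.InU (m v) (H305.finGL305 v y)) ∧
    ∀ w : InfinitePlace K, H305.infGL305 w y ∈ ballC53}

theorem setX_subset_bigBox53 (m : HeightOneSpectrum (𝓞 K) → ℕ) :
    setX53 (K := K) m ⊆ bigBox53 K := by
  intro y hy i j
  have hfin : ∀ v : HeightOneSpectrum (𝓞 K),
      (∀ i j : Fin 2, finComp v y i j ∈ v.adicCompletionIntegers K) ∧
        ∀ i j : Fin 2, finComp v y⁻¹ i j ∈ v.adicCompletionIntegers K := by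
    intro v
    have h0 := (inU_zero_iff53 v _).1 (inU_zero_of_inU53 v (hy.1 v))
    rw [finGL_coe53, finGL_inv_coe53] at h0
    exact h0
  have hinf : ∀ w : InfinitePlace K,
      (∀ i j : Fin 2, ‖infComp w y i j‖ ≤ 2) ∧ ∀ i j : Fin 2, ‖infComp w y⁻¹ i j‖ ≤ 2 := by
    intro w
    have h0 := hy.2 w
    refine ⟨fun i j => ?_, fun i j => ?_⟩
    · have := (h0 i j).1
      rwa [infGL_coe53] at this
    · have := (h0 i j).2
      rwa [infGL_inv_coe53] at this
  refine ⟨⟨fun w => ?_, fun v => (hfin v).1 i j⟩, ⟨fun w => ?_, fun v => (hfin v).2 i j⟩⟩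
  · rw [← T1.H793.norm_extensionEmbedding793]
    exact (hinf w).1 i j
  · rw [← T1.H793.norm_extensionEmbedding793]
    exact (hinf w).2 i j

/-- The box of the target: `∏_{v ∈ S} U(m_v) × ∏_w ballC53`. -/
def boxS53 (S : Finset (HeightOneSpectrum (𝓞 K))) (m : HeightOneSpectrum (𝓞 K) → ℕ) :
    Set ((∀ v : S, GL (Fin 2) ((v : HeightOneSpectrum (𝓞 K)).adicCompletion K)) ×
      (InfinitePlace K → GL (Fin 2) ℂ)) :=
  (Set.pi Set.univ fun v : S => {g | T6.InU (m v.1) g}) ×ˢ
    (Set.pi Set.univ fun _ : InfinitePlace K => ballC53)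

theorem isCompact_boxS53 (S : Finset (HeightOneSpectrum (𝓞 K)))
    (m : HeightOneSpectrum (𝓞 K) → ℕ) : IsCompact (boxS53 S m) :=
  (isCompact_univ_pi fun v : S => isCompact_inU53 v.1 (m v.1)).prod
    (isCompact_univ_pi fun _ => isCompact_ballC53)

theorem boxS_mem_nhds53 (S : Finset (HeightOneSpectrum (𝓞 K)))
    (m : HeightOneSpectrum (𝓞 K) → ℕ) : boxS53 S m ∈ 𝓝 (1 : _ × _) := by
  refine prod_mem_nhds ?_ ?_
  · exact set_pi_mem_nhds Set.finite_univ fun v _ => inU_mem_nhds53 v.1 (m v.1)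
  · exact set_pi_mem_nhds Set.finite_univ fun _ _ => ballC_mem_nhds53

/-- `H_S ∩ π_S⁻¹(box) = X` for every `S ⊇ T₀` (`m = 0` outside `T₀`). -/
theorem outSub_inter_preimage53 (T₀ S : Finset (HeightOneSpectrum (𝓞 K)))
    (m : HeightOneSpectrum (𝓞 K) → ℕ) (hm : ∀ v : HeightOneSpectrum (𝓞 K), v ∉ T₀ → m v = 0)
    (hS : T₀ ⊆ S) :
    (outSub53 S : Set (G K)) ∩ (piS53 S) ⁻¹' (boxS53 S m) = setX53 m := by
  ext y
  constructor
  · rintro ⟨hy, hb⟩
    have hb1 : ∀ v : S, T6.InU (m v.1) (H305.finGL305 v.1 y) := fun v =>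
      hb.1 v (Set.mem_univ v)
    have hb2 : ∀ w : InfinitePlace K, H305.infGL305 w y ∈ ballC53 := fun w =>
      hb.2 w (Set.mem_univ w)
    refine ⟨fun v => ?_, hb2⟩
    by_cases hv : v ∈ S
    · exact hb1 ⟨v, hv⟩
    · have hm0 : m v = 0 := hm v (fun h => hv (hS h))
      rw [hm0, inU_zero_iff53, finGL_coe53, finGL_inv_coe53]
      exact ⟨(hy v hv).1, (hy v hv).2⟩
  · intro hy
    refine ⟨fun v _ => ?_, ⟨fun v _ => hy.1 v.1, fun w _ => hy.2 w⟩⟩
    have h0 := (inU_zero_iff53 v _).1 (inU_zero_of_inU53 v (hy.1 v))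
    rw [finGL_coe53, finGL_inv_coe53] at h0
    exact ⟨h0.1, h0.2⟩

end Fermat.Agent.LT.T7.H53

end
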