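import Mathlib
import Fermat.Agent.LT.T7.H53.HaarPush
import Fermat.Agent.LT.T7.H53.HaarSplitTop

/-!
# Row LT, tower T7, leaf C2.7.4 `H305.HaarSplitC305` (helper53, SPARE of registry row 2568)

OFF-MAIN.  `haarSplitC53 K : H305.HaarSplitC305 K`, VERBATIM the Prop of
`LT/T7/H305/MatchCut.lean` (helper305, sha256 0f302b81), UNCONDITIONAL.

Proof.  `H_S = {y : y_v ∈ GL₂(𝒪_v), v ∉ S}` is an open subgroup (`isOpen_outSub53`),
`π_S = compS305 S` is a continuous homomorphism which maps `H_S` onto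
`L_S = ∏_{v ∈ S} GL₂(K_v) × ∏_w GL₂(ℂ)` (`exists_section53`, `K` totally complex), and
`H_S ∩ π_S⁻¹(∏_{v ∈ S} U(m_v) × ∏_w B) = X` is contained in a compact set (`B` = the compact
neighbourhood `ballC53` of `1`).  Hence `π_{S*} (μ|_{H_S})` is a Haar measure of `L_S`
(`isHaarMeasure_map_restrict53`), equal to `c_S` times the product measure, and
`c_S = μ(X) / (1 · μc(B)^{r})` by evaluation on the box (`map_restrict_eq_smul53`); `X` does not
depend on `S ⊇ T₀` (`outSub_inter_preimage53`: `U(0) = GL₂(𝒪_v)`).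
-/

set_option autoImplicit false
set_option linter.style.haveILetI false
set_option linter.unusedSectionVars false

open IsDedekindDomain NumberField WithZero Topology MeasureTheory
open Fermat.Agent.LT.H556.A0

noncomputable section

namespace Fermat.Agent.LT.T7.H53

open Fermat.Agent.LT Fermat.Agent.LT.T7

attribute [local instance] Fermat.Agent.LT.T5.instMeasurableSpaceG

variable {K : Type} [Field K] [NumberField K]

/-- THE CONSTANT `c = μ(X) / μc(B)^r`. -/
def haarConst53 (μ : Measure (G K)) (μc : @Measure (GL (Fin 2) ℂ) (borel _))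
    (m : HeightOneSpectrum (𝓞 K) → ℕ) : ℝ :=
  (μ (setX53 m)).toReal / ((μc ballC53) ^ Fintype.card (InfinitePlace K)).toReal

theorem measure_ballC_ne_zero53 (μc : @Measure (GL (Fin 2) ℂ) (borel _))
    (hμc : @Measure.IsHaarMeasure _ _ _ (borel _) μc) : μc ballC53 ≠ 0 := by
  letI : MeasurableSpace (GL (Fin 2) ℂ) := borel _
  haveI : BorelSpace (GL (Fin 2) ℂ) := ⟨rfl⟩
  haveI := hμc
  exact (Measure.measure_pos_of_mem_nhds μc ballC_mem_nhds53).ne'

theorem measure_ballC_ne_top53 (μc : @Measure (GL (Fin 2) ℂ) (borel _))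
    (hμc : @Measure.IsHaarMeasure _ _ _ (borel _) μc) : μc ballC53 ≠ ⊤ := by
  letI : MeasurableSpace (GL (Fin 2) ℂ) := borel _
  haveI : BorelSpace (GL (Fin 2) ℂ) := ⟨rfl⟩
  haveI := hμc
  exact isCompact_ballC53.measure_lt_top.ne

theorem setX_mem_nhds53 (T₀ : Finset (HeightOneSpectrum (𝓞 K)))
    (m : HeightOneSpectrum (𝓞 K) → ℕ) (hm : ∀ v : HeightOneSpectrum (𝓞 K), v ∉ T₀ → m v = 0) :
    setX53 m ∈ 𝓝 (1 : G K) := by
  rw [← outSub_inter_preimage53 T₀ T₀ m hm (Finset.Subset.refl _)]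
  refine Filter.inter_mem ((isOpen_outSub53 T₀).mem_nhds (outSub53 T₀).one_mem) ?_
  refine (continuous_piS53 T₀).continuousAt.preimage_mem_nhds ?_
  rw [map_one]
  exact boxS_mem_nhds53 T₀ m

theorem haarConst_pos53 (μ : Measure (G K)) (hμ : μ.IsHaarMeasure)
    (μc : @Measure (GL (Fin 2) ℂ) (borel _))
    (hμc : @Measure.IsHaarMeasure _ _ _ (borel _) μc)
    (T₀ : Finset (HeightOneSpectrum (𝓞 K)))
    (m : HeightOneSpectrum (𝓞 K) → ℕ) (hm : ∀ v : HeightOneSpectrum (𝓞 K), v ∉ T₀ → m v = 0) :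
    0 < haarConst53 μ μc m := by
  haveI : BorelSpace (G K) := ⟨rfl⟩
  haveI := hμ
  have h1 : μ (setX53 m) ≠ 0 := (Measure.measure_pos_of_mem_nhds μ (setX_mem_nhds53 T₀ m hm)).ne'
  have h2 : μ (setX53 m) ≠ ⊤ :=
    (lt_of_le_of_lt (measure_mono (setX_subset_bigBox53 m))
      isCompact_bigBox53.measure_lt_top).ne
  have h3 : (μc ballC53) ^ Fintype.card (InfinitePlace K) ≠ 0 :=
    pow_ne_zero _ (measure_ballC_ne_zero53 μc hμc)
  have h4 : (μc ballC53) ^ Fintype.card (InfinitePlace K) ≠ ⊤ :=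
    ENNReal.pow_ne_top (measure_ballC_ne_top53 μc hμc)
  exact div_pos (ENNReal.toReal_pos h1 h2) (ENNReal.toReal_pos h3 h4)

/-- The equation for one `S ⊇ T₀`. -/
theorem haarSplit_main53 (hcx : TotCplx K) (μ : Measure (G K)) (hμ : μ.IsHaarMeasure)
    (μc : @Measure (GL (Fin 2) ℂ) (borel _))
    (hμc : @Measure.IsHaarMeasure _ _ _ (borel _) μc)
    (T₀ S : Finset (HeightOneSpectrum (𝓞 K))) (m : HeightOneSpectrum (𝓞 K) → ℕ)
    (hm : ∀ v : HeightOneSpectrum (𝓞 K), v ∉ T₀ → m v = 0) (hS : T₀ ⊆ S)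
    (μv : ∀ v : HeightOneSpectrum (𝓞 K), @Measure (GL (Fin 2) (v.adicCompletion K)) (borel _))
    (hμv : ∀ v : HeightOneSpectrum (𝓞 K), H305.IsLocHaar305 (m v) (μv v)) :
    letI : ∀ v : HeightOneSpectrum (𝓞 K),
        MeasurableSpace (GL (Fin 2) (v.adicCompletion K)) := fun _ => borel _
    letI : MeasurableSpace (GL (Fin 2) ℂ) := borel _
    Measure.map (H305.compS305 S) (μ.restrict {y | H305.OutT305 S y})
      = ENNReal.ofReal (haarConst53 μ μc m) •
        ((Measure.pi fun v : S => μv v.1).prod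
          (Measure.pi fun _ : InfinitePlace K => μc)) := by
  letI iv : ∀ v : HeightOneSpectrum (𝓞 K),
      MeasurableSpace (GL (Fin 2) (v.adicCompletion K)) := fun _ => borel _
  letI ic : MeasurableSpace (GL (Fin 2) ℂ) := borel _
  haveI : BorelSpace (G K) := ⟨rfl⟩
  haveI : ∀ v : HeightOneSpectrum (𝓞 K), BorelSpace (GL (Fin 2) (v.adicCompletion K)) :=
    fun _ => ⟨rfl⟩
  haveI : BorelSpace (GL (Fin 2) ℂ) := ⟨rfl⟩
  haveI : ∀ v : HeightOneSpectrum (𝓞 K), LocallyCompactSpace (GL (Fin 2) (v.adicCompletion K)) :=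
    fun v => locallyCompact_GLv53 v
  haveI : ∀ v : HeightOneSpectrum (𝓞 K),
      SecondCountableTopology (GL (Fin 2) (v.adicCompletion K)) :=
    fun v => secondCountable_GLv53 v
  haveI : ∀ v : HeightOneSpectrum (𝓞 K), T2Space (GL (Fin 2) (v.adicCompletion K)) :=
    fun v => t2_GLv53 v
  haveI : LocallyCompactSpace (GL (Fin 2) ℂ) := locallyCompact_GLC53
  haveI : SecondCountableTopology (GL (Fin 2) ℂ) := secondCountable_GLC53
  haveI : T2Space (GL (Fin 2) ℂ) := t2_GLC53
  haveI := hμ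
  haveI := hμc
  haveI : ∀ v : S, (μv v.1).IsHaarMeasure := fun v => (hμv v.1).1
  haveI hsf : ∀ v : S, SigmaFinite (μv v.1) := fun v => inferInstance
  haveI hsfc : SigmaFinite μc := inferInstance
  haveI hmm : ∀ v : S, MeasurableMul (GL (Fin 2) ((v : HeightOneSpectrum (𝓞 K)).adicCompletion K)) :=
    fun v => inferInstance
  haveI hmmc : MeasurableMul (GL (Fin 2) ℂ) := inferInstance
  haveI hp1 : (Measure.pi fun v : S => μv v.1).IsHaarMeasure := inferInstance
  haveI hp2 : (Measure.pi fun _ : InfinitePlace K => μc).IsHaarMeasure := inferInstance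
  haveI hp3 : SigmaFinite (Measure.pi fun v : S => μv v.1) := inferInstance
  haveI hp4 : SigmaFinite (Measure.pi fun _ : InfinitePlace K => μc) := inferInstance
  haveI hp5 : ((Measure.pi fun v : S => μv v.1).prod
      (Measure.pi fun _ : InfinitePlace K => μc)).IsHaarMeasure := inferInstance
  have hsub : (outSub53 S : Set (G K)) ∩ (piS53 S) ⁻¹' (boxS53 S m) ⊆ bigBox53 K := by
    rw [outSub_inter_preimage53 T₀ S m hm hS]
    exact setX_subset_bigBox53 m
  have hbox : ((Measure.pi fun v : S => μv v.1).prod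
      (Measure.pi fun _ : InfinitePlace K => μc)) (boxS53 S m)
        = (μc ballC53) ^ Fintype.card (InfinitePlace K) := by
    unfold boxS53
    rw [Measure.prod_prod, Measure.pi_pi, Measure.pi_pi]
    have h1 : ∀ v : S, μv v.1 {g | T6.InU (m v.1) g} = 1 := fun v => (hμv v.1).2
    rw [Finset.prod_congr rfl (fun v _ => h1 v), Finset.prod_const_one, one_mul,
      Finset.prod_const, Finset.card_univ]
  have h0 : ((Measure.pi fun v : S => μv v.1).prod
      (Measure.pi fun _ : InfinitePlace K => μc)) (boxS53 S m) ≠ 0 := by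
    rw [hbox]
    exact pow_ne_zero _ (measure_ballC_ne_zero53 μc hμc)
  have h1 : ((Measure.pi fun v : S => μv v.1).prod
      (Measure.pi fun _ : InfinitePlace K => μc)) (boxS53 S m) ≠ ⊤ := by
    rw [hbox]
    exact ENNReal.pow_ne_top (measure_ballC_ne_top53 μc hμc)
  have key := map_restrict_eq_smul53 μ (outSub53 S) (isOpen_outSub53 S) (piS53 S)
    (continuous_piS53 S) (exists_section53 hcx S) (boxS53 S m) (isCompact_boxS53 S m)
    (boxS_mem_nhds53 S m) (bigBox53 K) isCompact_bigBox53 hsub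
    ((Measure.pi fun v : S => μv v.1).prod (Measure.pi fun _ : InfinitePlace K => μc))
    (boxS53 S m) (isCompact_boxS53 S m).isClosed.measurableSet h0 h1
  rw [outSub_inter_preimage53 T₀ S m hm hS, hbox] at key
  exact key

/-- **C2.7.4 `HaarSplitC305`, unconditional.** -/
theorem haarSplitC53 (K : Type) [Field K] [NumberField K] : H305.HaarSplitC305 K := by
  intro hcx μ hμ μc hμc T₀ m hm
  exact ⟨haarConst53 μ μc m, haarConst_pos53 μ hμ μc hμc T₀ m hm,
    fun S hS μv hμv => haarSplit_main53 hcx μ hμ μc hμc T₀ S m hm hS μv hμv⟩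

end Fermat.Agent.LT.T7.H53

end
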