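import Mathlib
import Fermat.Agent.LT.T7.H53.HaarSplit
import Fermat.Agent.LT.T7.H53.ConvLoc

/-!
# Row LT, tower T7, leaf PT.1 `PT563.ConvPureC563` (helper53, SPARE): the core

OFF-MAIN.  `convPure_main53`: for a totally complex field `K`, Haar measures `μ` of `GL₂(𝔸_K)`
and `μc` of `GL₂(ℂ)`, levels `m` (zero outside `T₀`) and `T ⊇ T₀`:

    conv μ (pure305 T f₀ F₁) (pure305 T g₀ F₂) h
      = haarConst53 μ μc m * pure305 T χ₀ (fun w => convInt μc (F₁ w) (F₂ w)) h

for bi-`U(m v)`-invariant components `f₀ v`, `g₀ v` with `T6.IsConv (U(m v)) (f₀ v) (g₀ v) (χ₀ v)`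
(`v ∈ T`) and continuous components at infinity.  The constant is the constant of
`haarSplit_main53` (`H305.HaarSplitC305`).  Stated on the vocabulary of
`T7/H305/MatchSpec.lean`, `T5/Spec.lean`, `T6/Spec.lean` only.

Proof.  The first factor vanishes outside `Out_T = {y : y_v ∈ GL₂(𝒪_v), v ∉ T}`, a subgroup.  If
`h ∉ Out_T` the integrand vanishes.  If `h ∈ Out_T` the integrand is `1_{Out_T} · (A ∘ π_T)`,
`A` the product of the local integrands; the image of `μ|_{Out_T}` under `π_T` is `c` times the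
product of the local Haar measures (`vol U(m v) = 1`), Fubini, and the local integrals are the
finite convolutions (`integral_conv_of_isConv53`).
-/

set_option autoImplicit false
set_option linter.style.haveILetI false
set_option linter.unusedSectionVars false

open IsDedekindDomain NumberField WithZero Topology MeasureTheory
open Fermat.Agent.LT.H556.A0

noncomputable section

namespace Fermat.Agent.LT.T7.H53

open Fermat.Agent.LT Fermat.Agent.LT.T7

attribute [local instance] Fermat.Agent.LT.T5.instMeasurableSpaceG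

variable {K : Type} [Field K] [NumberField K]

/-! ## 1. The pure tensors on `Out_T` -/

theorem outT_mul53 {T : Finset (HeightOneSpectrum (𝓞 K))} {a b : G K}
    (ha : H305.OutT305 T a) (hb : H305.OutT305 T b) : H305.OutT305 T (a * b) :=
  (outSub53 T).mul_mem ha hb

theorem outT_inv53 {T : Finset (HeightOneSpectrum (𝓞 K))} {a : G K}
    (ha : H305.OutT305 T a) : H305.OutT305 T a⁻¹ :=
  (outSub53 T).inv_mem ha

theorem outT_inv_mul_iff53 {T : Finset (HeightOneSpectrum (𝓞 K))} {y h : G K}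
    (hy : H305.OutT305 T y) : H305.OutT305 T (y⁻¹ * h) ↔ H305.OutT305 T h := by
  constructor
  · intro hh
    have := outT_mul53 hy hh
    rwa [mul_inv_cancel_left] at this
  · intro hh
    exact outT_mul53 (outT_inv53 hy) hh

/-- The local integrand on the product. -/
def convA53 (T : Finset (HeightOneSpectrum (𝓞 K)))
    (f₀ g₀ : ∀ v : HeightOneSpectrum (𝓞 K), GL (Fin 2) (v.adicCompletion K) → ℂ)
    (F₁ F₂ : InfinitePlace K → GL (Fin 2) ℂ → ℂ) (h : G K)
    (z : (∀ v : T, GL (Fin 2) ((v : HeightOneSpectrum (𝓞 K)).adicCompletion K)) ×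
      (InfinitePlace K → GL (Fin 2) ℂ)) : ℂ :=
  (∏ v : T, f₀ v.1 (z.1 v) * g₀ v.1 ((z.1 v)⁻¹ * H305.finGL305 v.1 h))
    * ∏ w : InfinitePlace K, F₁ w (z.2 w) * F₂ w ((z.2 w)⁻¹ * H305.infGL305 w h)

theorem pure_mul_pure53 (T : Finset (HeightOneSpectrum (𝓞 K)))
    (f₀ g₀ : ∀ v : HeightOneSpectrum (𝓞 K), GL (Fin 2) (v.adicCompletion K) → ℂ)
    (F₁ F₂ : InfinitePlace K → GL (Fin 2) ℂ → ℂ) (h : G K) (hh : H305.OutT305 T h) (y : G K) :
    H305.pure305 T f₀ F₁ y * H305.pure305 T g₀ F₂ (y⁻¹ * h)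
      = Set.indicator {y : G K | H305.OutT305 T y}
          (fun y => convA53 T f₀ g₀ F₁ F₂ h (H305.compS305 T y)) y := by
  classical
  by_cases hy : H305.OutT305 T y
  · rw [Set.indicator_of_mem (show y ∈ {y : G K | H305.OutT305 T y} from hy)]
    have hyh : H305.OutT305 T (y⁻¹ * h) := (outT_inv_mul_iff53 hy).2 hh
    unfold H305.pure305 convA53 H305.compS305
    rw [if_pos hy, if_pos hyh]
    simp only [map_mul, map_inv]
    rw [Finset.prod_mul_distrib, Finset.prod_mul_distrib]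
    rw [Finset.prod_coe_sort T (fun v => f₀ v (H305.finGL305 v y)),
      Finset.prod_coe_sort T
        (fun v => g₀ v ((H305.finGL305 v y)⁻¹ * H305.finGL305 v h))]
    ring
  · rw [Set.indicator_of_notMem (show y ∉ {y : G K | H305.OutT305 T y} from hy)]
    unfold H305.pure305
    rw [if_neg hy, zero_mul]

theorem pure_mul_pure_zero53 (T : Finset (HeightOneSpectrum (𝓞 K)))
    (f₀ g₀ : ∀ v : HeightOneSpectrum (𝓞 K), GL (Fin 2) (v.adicCompletion K) → ℂ)
    (F₁ F₂ : InfinitePlace K → GL (Fin 2) ℂ → ℂ) (h : G K) (hh : ¬ H305.OutT305 T h) (y : G K) :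
    H305.pure305 T f₀ F₁ y * H305.pure305 T g₀ F₂ (y⁻¹ * h) = 0 := by
  classical
  by_cases hy : H305.OutT305 T y
  · have hyh : ¬ H305.OutT305 T (y⁻¹ * h) := fun hc => hh ((outT_inv_mul_iff53 hy).1 hc)
    unfold H305.pure305
    rw [if_neg hyh, mul_zero]
  · unfold H305.pure305
    rw [if_neg hy, zero_mul]

/-! ## 2. Measurability -/

theorem measurable_convA53 (T : Finset (HeightOneSpectrum (𝓞 K)))
    (f₀ g₀ : ∀ v : HeightOneSpectrum (𝓞 K), GL (Fin 2) (v.adicCompletion K) → ℂ)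
    (F₁ F₂ : InfinitePlace K → GL (Fin 2) ℂ → ℂ) (h : G K)
    (hf : ∀ v ∈ T, Continuous (f₀ v)) (hg : ∀ v ∈ T, Continuous (g₀ v))
    (hF₁ : ∀ w : InfinitePlace K, Continuous (F₁ w))
    (hF₂ : ∀ w : InfinitePlace K, Continuous (F₂ w)) :
    letI : ∀ v : HeightOneSpectrum (𝓞 K),
        MeasurableSpace (GL (Fin 2) (v.adicCompletion K)) := fun _ => borel _
    letI : MeasurableSpace (GL (Fin 2) ℂ) := borel _
    Measurable (convA53 T f₀ g₀ F₁ F₂ h) := by
  letI iv : ∀ v : HeightOneSpectrum (𝓞 K),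
      MeasurableSpace (GL (Fin 2) (v.adicCompletion K)) := fun _ => borel _
  letI ic : MeasurableSpace (GL (Fin 2) ℂ) := borel _
  haveI : ∀ v : HeightOneSpectrum (𝓞 K), BorelSpace (GL (Fin 2) (v.adicCompletion K)) :=
    fun _ => ⟨rfl⟩
  haveI : BorelSpace (GL (Fin 2) ℂ) := ⟨rfl⟩
  unfold convA53
  refine Measurable.mul ?_ ?_
  · refine Finset.measurable_prod _ fun v _ => ?_
    have h1 : Continuous fun y : GL (Fin 2) ((v : HeightOneSpectrum (𝓞 K)).adicCompletion K) =>
        f₀ v.1 y * g₀ v.1 (y⁻¹ * H305.finGL305 v.1 h) :=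
      (hf v.1 v.2).mul ((hg v.1 v.2).comp (continuous_inv.mul continuous_const))
    exact h1.measurable.comp ((measurable_pi_apply v).comp measurable_fst)
  · refine Finset.measurable_prod _ fun w _ => ?_
    have h1 : Continuous fun y : GL (Fin 2) ℂ =>
        F₁ w y * F₂ w (y⁻¹ * H305.infGL305 w h) :=
      (hF₁ w).mul ((hF₂ w).comp (continuous_inv.mul continuous_const))
    exact h1.measurable.comp ((measurable_pi_apply w).comp measurable_snd)

theorem measurable_compS53 (T : Finset (HeightOneSpectrum (𝓞 K))) :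
    letI : ∀ v : HeightOneSpectrum (𝓞 K),
        MeasurableSpace (GL (Fin 2) (v.adicCompletion K)) := fun _ => borel _
    letI : MeasurableSpace (GL (Fin 2) ℂ) := borel _
    Measurable (H305.compS305 (K := K) T) := by
  letI iv : ∀ v : HeightOneSpectrum (𝓞 K),
      MeasurableSpace (GL (Fin 2) (v.adicCompletion K)) := fun _ => borel _
  letI ic : MeasurableSpace (GL (Fin 2) ℂ) := borel _
  haveI : BorelSpace (G K) := ⟨rfl⟩
  haveI : ∀ v : HeightOneSpectrum (𝓞 K), BorelSpace (GL (Fin 2) (v.adicCompletion K)) :=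
    fun _ => ⟨rfl⟩
  haveI : BorelSpace (GL (Fin 2) ℂ) := ⟨rfl⟩
  unfold H305.compS305
  exact Measurable.prodMk (measurable_pi_lambda _ fun v => (continuous_finGL53 v.1).measurable)
    (measurable_pi_lambda _ fun w => (continuous_infGL53 w).measurable)

/-! ## 3. The main theorem -/

/-- **PT.1, core form.** -/
theorem convPure_main53 (hcx : TotCplx K) (μ : Measure (G K)) (hμ : μ.IsHaarMeasure)
    (μc : @Measure (GL (Fin 2) ℂ) (borel _))
    (hμc : @Measure.IsHaarMeasure _ _ _ (borel _) μc)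
    (T₀ T : Finset (HeightOneSpectrum (𝓞 K))) (m : HeightOneSpectrum (𝓞 K) → ℕ)
    (hm : ∀ v : HeightOneSpectrum (𝓞 K), v ∉ T₀ → m v = 0) (hT : T₀ ⊆ T)
    (f₀ g₀ χ₀ : ∀ v : HeightOneSpectrum (𝓞 K), GL (Fin 2) (v.adicCompletion K) → ℂ)
    (F₁ F₂ : InfinitePlace K → GL (Fin 2) ℂ → ℂ)
    (hf : ∀ v ∈ T, T6.IsBiInv (T6.InU (m v)) (f₀ v))
    (hg : ∀ v ∈ T, T6.IsBiInv (T6.InU (m v)) (g₀ v))
    (hχ : ∀ v ∈ T, T6.IsConv (T6.InU (m v)) (f₀ v) (g₀ v) (χ₀ v))
    (hF₁ : ∀ w : InfinitePlace K, Continuous (F₁ w))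
    (hF₂ : ∀ w : InfinitePlace K, Continuous (F₂ w)) (h : G K) :
    T5.conv μ (H305.pure305 T f₀ F₁) (H305.pure305 T g₀ F₂) h
      = (haarConst53 μ μc m : ℂ)
        * H305.pure305 T χ₀ (fun w => @T6.convInt _ _ (borel _) μc (F₁ w) (F₂ w)) h := by
  classical
  unfold T5.conv
  by_cases hh : H305.OutT305 T h
  swap
  · rw [show H305.pure305 T χ₀ (fun w => @T6.convInt _ _ (borel _) μc (F₁ w) (F₂ w)) h = 0 from by
      unfold H305.pure305
      rw [if_neg hh], mul_zero]
    rw [integral_congr_ae (Filter.Eventually.of_forall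
      (pure_mul_pure_zero53 T f₀ g₀ F₁ F₂ h hh))]
    exact integral_zero _ _
  letI iv : ∀ v : HeightOneSpectrum (𝓞 K),
      MeasurableSpace (GL (Fin 2) (v.adicCompletion K)) := fun _ => borel _
  letI ic : MeasurableSpace (GL (Fin 2) ℂ) := borel _
  haveI : BorelSpace (G K) := ⟨rfl⟩
  haveI : ∀ v : HeightOneSpectrum (𝓞 K), BorelSpace (GL (Fin 2) (v.adicCompletion K)) :=
    fun _ => ⟨rfl⟩
  haveI : BorelSpace (GL (Fin 2) ℂ) := ⟨rfl⟩
  haveI : ∀ v : HeightOneSpectrum (𝓞 K), LocallyCompactSpace (GL (Fin 2) (v.adicCompletion K)) :=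
    fun v => locallyCompact_GLv53 v
  haveI : ∀ v : HeightOneSpectrum (𝓞 K),
      SecondCountableTopology (GL (Fin 2) (v.adicCompletion K)) :=
    fun v => secondCountable_GLv53 v
  haveI : ∀ v : HeightOneSpectrum (𝓞 K), T2Space (GL (Fin 2) (v.adicCompletion K)) :=
    fun v => t2_GLv53 v
  haveI : LocallyCompactSpace (GL (Fin 2) ℂ) := locallyCompact_GLC53
  haveI : SecondCountableTopology (GL (Fin 2) ℂ) := secondCountable_GLC53
  haveI : T2Space (GL (Fin 2) ℂ) := t2_GLC53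
  haveI := hμ
  haveI := hμc
  -- the local Haar measures
  choose μv hμv using fun v : HeightOneSpectrum (𝓞 K) => exists_locHaar53 v (m v)
  haveI : ∀ v : HeightOneSpectrum (𝓞 K), (μv v).IsHaarMeasure := fun v => (hμv v).1
  haveI : ∀ v : T, (μv v.1).IsHaarMeasure := fun v => (hμv v.1).1
  haveI hsf : ∀ v : T, SigmaFinite (μv v.1) := fun v => inferInstance
  haveI hsfc : SigmaFinite μc := inferInstance
  haveI hp3 : SigmaFinite (Measure.pi fun v : T => μv v.1) := inferInstance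
  haveI hp4 : SigmaFinite (Measure.pi fun _ : InfinitePlace K => μc) := inferInstance
  have hsplit := haarSplit_main53 hcx μ hμ μc hμc T₀ T m hm hT μv hμv
  have hc0 : 0 ≤ haarConst53 μ μc m := (haarConst_pos53 μ hμ μc hμc T₀ m hm).le
  -- continuity of the components
  have hfc : ∀ v ∈ T, Continuous (f₀ v) := fun v hv => continuous_of_isBiInv53 v (m v) _ (hf v hv)
  have hgc : ∀ v ∈ T, Continuous (g₀ v) := fun v hv => continuous_of_isBiInv53 v (m v) _ (hg v hv)
  have hAm : Measurable (convA53 T f₀ g₀ F₁ F₂ h) :=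
    measurable_convA53 T f₀ g₀ F₁ F₂ h hfc hgc hF₁ hF₂
  have hOm : MeasurableSet {y : G K | H305.OutT305 T y} := by
    rw [← coe_outSub53]
    exact (isOpen_outSub53 T).measurableSet
  -- Step A + B
  rw [integral_congr_ae (Filter.Eventually.of_forall (pure_mul_pure53 T f₀ g₀ F₁ F₂ h hh))]
  rw [integral_indicator hOm]
  rw [← integral_map (measurable_compS53 T).aemeasurable hAm.aestronglyMeasurable]
  rw [hsplit, integral_smul_measure, ENNReal.toReal_ofReal hc0]
  -- Step C: Fubini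
  have hfub : ∫ z, convA53 T f₀ g₀ F₁ F₂ h z
        ∂((Measure.pi fun v : T => μv v.1).prod (Measure.pi fun _ : InfinitePlace K => μc))
      = (∏ v : T, ∫ y, f₀ v.1 y * g₀ v.1 (y⁻¹ * H305.finGL305 v.1 h) ∂(μv v.1))
        * ∏ w : InfinitePlace K, ∫ y, F₁ w y * F₂ w (y⁻¹ * H305.infGL305 w h) ∂μc := by
    unfold convA53
    rw [integral_prod_mul
      (μ := Measure.pi fun v : T => μv v.1) (ν := Measure.pi fun _ : InfinitePlace K => μc)
      (fun a : (∀ v : T, GL (Fin 2) ((v : HeightOneSpectrum (𝓞 K)).adicCompletion K)) =>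
        ∏ v : T, f₀ v.1 (a v) * g₀ v.1 ((a v)⁻¹ * H305.finGL305 v.1 h))
      (fun b : InfinitePlace K → GL (Fin 2) ℂ =>
        ∏ w : InfinitePlace K, F₁ w (b w) * F₂ w ((b w)⁻¹ * H305.infGL305 w h))]
    rw [integral_fintype_prod_eq_prod
      (fun (v : T) (y : GL (Fin 2) ((v : HeightOneSpectrum (𝓞 K)).adicCompletion K)) =>
        f₀ v.1 y * g₀ v.1 (y⁻¹ * H305.finGL305 v.1 h)),
      integral_fintype_prod_eq_prod
      (fun (w : InfinitePlace K) (y : GL (Fin 2) ℂ) =>
        F₁ w y * F₂ w (y⁻¹ * H305.infGL305 w h))]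
  rw [hfub]
  -- Step D: the local integrals
  have hloc : ∀ v : T, ∫ y, f₀ v.1 y * g₀ v.1 (y⁻¹ * H305.finGL305 v.1 h) ∂(μv v.1)
      = χ₀ v.1 (H305.finGL305 v.1 h) := by
    intro v
    exact integral_conv_of_isConv53 (μv v.1) (T6.InU (m v.1)) (inU_one'53 (m v.1))
      (fun a b ha hb => inU_mul53 ha hb) (fun a ha => inU_inv53 ha)
      (isOpen_inU53 v.1 (m v.1)).measurableSet (hμv v.1).2 (f₀ v.1) (g₀ v.1) (χ₀ v.1)
      (hf v.1 v.2) (hg v.1 v.2) (hχ v.1 v.2) _
  rw [Finset.prod_congr rfl (fun v _ => hloc v)]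
  unfold H305.pure305
  rw [if_pos hh, Finset.prod_coe_sort T (fun v => χ₀ v (H305.finGL305 v h))]
  rfl

end Fermat.Agent.LT.T7.H53

end
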