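import Mathlib
import Fermat.Agent.LT.T7.P51.ConvAvgSpec
import Fermat.Agent.LT.T7.H53.ConvPureCore
import Fermat.Agent.LT.T7.H634.ConvAvg
import Fermat.Agent.LT.T7.H872.ConvTest

/-!
# Row LT, tower T7, node T7.L2.1.H2b.G2.1 `P51.ConvFamC51` (helper53, SPARE)

OFF-MAIN.  `convFamC53 F : P51.ConvFamC51 F`, VERBATIM the Prop of `LT/T7/P51/ConvAvgSpec.lean`
(helper51, sha256 dc819a38), UNCONDITIONAL.

Proof.  The constant is `haarConst53 μ μc lv` (the constant of `H305.HaarSplitC305`).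
* `pure_ext53`: a pure tensor over `T` is the pure tensor over `S ⊇ T` of the components
  extended by `1_{GL₂(𝒪)}` (`P51.ext51`).
* `convPure_main53` (PT.1, `H53/ConvPureCore.lean`) for `S = T₁ ∪ T₂`:
  `P₁ ⋆ P₂ = c · pure305 S χ (Φ₁ * Φ₂)`.
* `convAvgC634` (PT.3 `PT563.ConvAvgC563`, helper634): the convolution of the averages is the
  average of the convolutions, jointly continuous, one compact support.
* `isTestFn_conv872` (helper872): the convolution of test functions is a test function.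
-/

set_option autoImplicit false
set_option linter.style.haveILetI false
set_option linter.unusedSectionVars false

open IsDedekindDomain NumberField WithZero Topology MeasureTheory
open Fermat.Agent.LT.H556.A0

noncomputable section

namespace Fermat.Agent.LT.T7.H53

open Fermat.Agent.LT Fermat.Agent.LT.T7

attribute [local instance] Fermat.Agent.LT.T5.instMeasurableSpaceG

variable {F : Type} [Field F] [NumberField F]

/-! ## 1. Extension of the components by the unit -/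

theorem inU_zero_finGL_iff53 (v : HeightOneSpectrum (𝓞 F)) (h : G F) :
    T6.InU 0 (H305.finGL305 v h) ↔ IsIntegralAt v h ∧ IsIntegralAt v h⁻¹ := by
  rw [inU_zero_iff53]
  constructor
  · rintro ⟨h1, h2⟩
    refine ⟨fun i j => ?_, fun i j => ?_⟩
    · have := h1 i j
      rwa [finGL_coe53] at this
    · have := h2 i j
      rwa [finGL_inv_coe53] at this
  · rintro ⟨h1, h2⟩
    refine ⟨fun i j => ?_, fun i j => ?_⟩
    · rw [finGL_coe53]
      exact h1 i j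
    · rw [finGL_inv_coe53]
      exact h2 i j

theorem ext_of_mem53 {T : Finset (HeightOneSpectrum (𝓞 F))}
    (φ : ∀ w : HeightOneSpectrum (𝓞 F), GL (Fin 2) (w.adicCompletion F) → ℂ)
    {w : HeightOneSpectrum (𝓞 F)} (hw : w ∈ T) : P51.ext51 T φ w = φ w :=
  if_pos hw

theorem ext_of_notMem53 {T : Finset (HeightOneSpectrum (𝓞 F))}
    (φ : ∀ w : HeightOneSpectrum (𝓞 F), GL (Fin 2) (w.adicCompletion F) → ℂ)
    {w : HeightOneSpectrum (𝓞 F)} (hw : w ∉ T) : P51.ext51 T φ w = H893.unitFn893 0 :=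
  if_neg hw

theorem unitFn_zero_of53 {v : HeightOneSpectrum (𝓞 F)} {x : GL (Fin 2) (v.adicCompletion F)}
    (hx : T6.InU 0 x) : H893.unitFn893 0 x = 1 :=
  if_pos hx

theorem unitFn_zero_of_not53 {v : HeightOneSpectrum (𝓞 F)}
    {x : GL (Fin 2) (v.adicCompletion F)} (hx : ¬ T6.InU 0 x) : H893.unitFn893 0 x = 0 :=
  if_neg hx

/-- **A pure tensor over `T` is the pure tensor over `S ⊇ T` of the extended components.** -/
theorem pure_ext53 {T S : Finset (HeightOneSpectrum (𝓞 F))} (hTS : T ⊆ S)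
    (φ : ∀ w : HeightOneSpectrum (𝓞 F), GL (Fin 2) (w.adicCompletion F) → ℂ)
    (Φ : InfinitePlace F → GL (Fin 2) ℂ → ℂ) (h : G F) :
    H305.pure305 T φ Φ h = H305.pure305 S (P51.ext51 T φ) Φ h := by
  classical
  unfold H305.pure305
  by_cases hT : H305.OutT305 T h
  · have hS : H305.OutT305 S h := fun v hv => hT v (fun hvT => hv (hTS hvT))
    rw [if_pos hT, if_pos hS]
    congr 1
    rw [← Finset.prod_subset hTS]
    · exact Finset.prod_congr rfl fun v hv => by rw [ext_of_mem53 φ hv]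
    · intro v _ hvT
      rw [ext_of_notMem53 φ hvT, unitFn_zero_of53 ((inU_zero_finGL_iff53 v h).2 (hT v hvT))]
  · rw [if_neg hT]
    by_cases hS : H305.OutT305 S h
    · rw [if_pos hS]
      have : ∃ v, v ∉ T ∧ ¬ (IsIntegralAt v h ∧ IsIntegralAt v h⁻¹) := by
        by_contra hc
        push Not at hc
        exact hT fun v hv => hc v hv
      obtain ⟨v, hvT, hv⟩ := this
      have hvS : v ∈ S := by
        by_contra hvS
        exact hv (hS v hvS)
      rw [Finset.prod_eq_zero hvS, zero_mul]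
      rw [ext_of_notMem53 φ hvT,
        unitFn_zero_of_not53 (fun hc => hv ((inU_zero_finGL_iff53 v h).1 hc))]
    · rw [if_neg hS]

/-- The unit `1_{GL₂(𝒪)}` is bi-invariant under `U(n)`. -/
theorem isBiInv_unit_zero53 (v : HeightOneSpectrum (𝓞 F)) (n : ℕ) :
    T6.IsBiInv (T6.InU n) (H893.unitFn893 (k := v.adicCompletion F) 0) := by
  classical
  intro u u' g hu hu'
  have hu0 := inU_zero_of_inU53 v hu
  have hu0' := inU_zero_of_inU53 v hu'
  have hiff : T6.InU 0 (u * g * u') ↔ T6.InU 0 g := by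
    constructor
    · intro hg
      have h1 := inU_mul53 (inU_mul53 (inU_inv53 hu0) hg) (inU_inv53 hu0')
      have e : u⁻¹ * (u * g * u') * u'⁻¹ = g := by group
      rwa [e] at h1
    · intro hg
      exact inU_mul53 (inU_mul53 hu0 hg) hu0'
  by_cases hg : T6.InU 0 g
  · rw [unitFn_zero_of53 hg, unitFn_zero_of53 (hiff.2 hg)]
  · rw [unitFn_zero_of_not53 hg, unitFn_zero_of_not53 (fun hc => hg (hiff.1 hc))]

theorem isBiInv_ext53 {T : Finset (HeightOneSpectrum (𝓞 F))}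
    (lv : HeightOneSpectrum (𝓞 F) → ℕ)
    (φ : ∀ w : HeightOneSpectrum (𝓞 F), GL (Fin 2) (w.adicCompletion F) → ℂ)
    (hφ : ∀ w ∈ T, T6.IsBiInv (T6.InU (lv w)) (φ w)) (w : HeightOneSpectrum (𝓞 F)) :
    T6.IsBiInv (T6.InU (lv w)) (P51.ext51 T φ w) := by
  by_cases hw : w ∈ T
  · rw [ext_of_mem53 φ hw]
    exact hφ w hw
  · rw [ext_of_notMem53 φ hw]
    exact isBiInv_unit_zero53 w (lv w)

/-! ## 2. Scalar multiples of test functions -/

theorem isTestFn_const_mul53 {𝔫 : Ideal (𝓞 F)} {τ : G F → ℂ} {φ : G F → ℂ} (c : ℂ)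
    (hφ : T5.IsTestFn 𝔫 τ φ) : T5.IsTestFn 𝔫 τ (fun h => c * φ h) where
  ktype := hφ.ktype
  cont := continuous_const.mul hφ.cont
  supp := hφ.supp.mul_left
  smooth := fun n h h1 h2 g => contDiff_const.mul (hφ.smooth n h h1 h2 g)
  inv :=
    { level_right := fun u hu g => by
        rw [hφ.inv.level_right u hu]
      level_left := fun u hu g => by
        rw [hφ.inv.level_left u hu]
      arch_right := fun w k hk g => by
        rw [hφ.inv.arch_right w k hk]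
        ring
      arch_left := fun w k hk g => by
        rw [hφ.inv.arch_left w k hk]
        ring }

/-! ## 3. The convolution of two members -/

open Classical in
/-- **The convolution of two members of the families.** -/
theorem conv_member53 (hcx : TotCplx F) (μ : Measure (G F)) (hμ : μ.IsHaarMeasure)
    (μc : @Measure (GL (Fin 2) ℂ) (borel _))
    (hμc : @Measure.IsHaarMeasure _ _ _ (borel _) μc)
    (T₀ : Finset (HeightOneSpectrum (𝓞 F))) (lv : HeightOneSpectrum (𝓞 F) → ℕ)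
    (hlv : ∀ v : HeightOneSpectrum (𝓞 F), v ∉ T₀ → lv v = 0)
    (T₁ T₂ : Finset (HeightOneSpectrum (𝓞 F))) (h₁ : T₀ ⊆ T₁)
    (φ₁ φ₂ χ : ∀ w : HeightOneSpectrum (𝓞 F), GL (Fin 2) (w.adicCompletion F) → ℂ)
    (Φ₁ Φ₂ : InfinitePlace F → GL (Fin 2) ℂ → ℂ)
    (hr₁ : ∀ w ∈ T₁, T6.IsBiInv (T6.InU (lv w)) (φ₁ w))
    (hr₂ : ∀ w ∈ T₂, T6.IsBiInv (T6.InU (lv w)) (φ₂ w))
    (hΦ₁ : ∀ w : InfinitePlace F, Continuous (Φ₁ w))
    (hΦ₂ : ∀ w : InfinitePlace F, Continuous (Φ₂ w))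
    (hχ : ∀ w ∈ T₁ ∪ T₂, T6.IsConv (T6.InU (lv w)) (P51.ext51 T₁ φ₁ w) (P51.ext51 T₂ φ₂ w)
      (χ w)) (h : G F) :
    T5.conv μ (H305.pure305 T₁ φ₁ Φ₁) (H305.pure305 T₂ φ₂ Φ₂) h
      = (haarConst53 μ μc lv : ℂ)
        * H305.pure305 (T₁ ∪ T₂) χ
            (fun w => @T6.convInt _ _ (borel _) μc (Φ₁ w) (Φ₂ w)) h := by
  have e₁ : H305.pure305 T₁ φ₁ Φ₁ = H305.pure305 (T₁ ∪ T₂) (P51.ext51 T₁ φ₁) Φ₁ :=
    funext fun y => pure_ext53 Finset.subset_union_left φ₁ Φ₁ y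
  have e₂ : H305.pure305 T₂ φ₂ Φ₂ = H305.pure305 (T₁ ∪ T₂) (P51.ext51 T₂ φ₂) Φ₂ :=
    funext fun y => pure_ext53 Finset.subset_union_right φ₂ Φ₂ y
  rw [e₁, e₂]
  exact convPure_main53 hcx μ hμ μc hμc T₀ (T₁ ∪ T₂) lv hlv
    (h₁.trans Finset.subset_union_left) _ _ χ Φ₁ Φ₂
    (fun w _ => isBiInv_ext53 lv φ₁ hr₁ w) (fun w _ => isBiInv_ext53 lv φ₂ hr₂ w) hχ hΦ₁ hΦ₂ h

/-! ## 4. The node -/

/-- **P.G2.1 `ConvFamC51`, unconditional.** -/
theorem convFamC53 (F : Type) [Field F] [NumberField F] : P51.ConvFamC51 F := by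
  classical
  intro hcx μ hμ μc hμc T₀ lv hlv 𝔫 h𝔫
  have hcpos : 0 < haarConst53 μ μc lv := haarConst_pos53 μ hμ μc hμc T₀ lv hlv
  have hcne : (haarConst53 μ μc lv : ℂ) ≠ 0 := by
    exact_mod_cast hcpos.ne'
  refine ⟨⟨haarConst53 μ μc lv, hcpos.le⟩, ?_, ?_⟩
  · intro h0
    have : haarConst53 μ μc lv = 0 := congrArg NNReal.toReal h0
    exact hcpos.ne' this
  intro Ω₁ _ _ _ _ _ _ ν₁ _ Ω₂ _ _ _ _ _ _ ν₂ _ T₁ φ₁ Φ₁ T₂ φ₂ Φ₂ χ hF₁ hF₂ hχ
  -- the convolution of the members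
  have hmem : ∀ (p : Ω₁ × Ω₂) (h : G F),
      T5.conv μ (H305.pure305 (T₁ p.1) (φ₁ p.1) (Φ₁ p.1))
          (H305.pure305 (T₂ p.2) (φ₂ p.2) (Φ₂ p.2)) h
        = (haarConst53 μ μc lv : ℂ)
          * H305.pure305 (T₁ p.1 ∪ T₂ p.2) (χ p)
              (fun w => @T6.convInt _ _ (borel _) μc (Φ₁ p.1 w) (Φ₂ p.2 w)) h := by
    intro p h
    exact conv_member53 hcx μ hμ μc hμc T₀ lv hlv (T₁ p.1) (T₂ p.2) (hF₁.sub p.1)
      (φ₁ p.1) (φ₂ p.2) (χ p) (Φ₁ p.1) (Φ₂ p.2)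
      (fun w hw => (hF₁.reg p.1 w hw).1) (fun w hw => (hF₂.reg p.2 w hw).1)
      (fun w => (hF₁.arch p.1 w).1) (fun w => (hF₂.arch p.2 w).1) (hχ p) h
  have hmem' : ∀ (p : Ω₁ × Ω₂) (h : G F),
      H305.pure305 (T₁ p.1 ∪ T₂ p.2) (χ p)
          (fun w => @T6.convInt _ _ (borel _) μc (Φ₁ p.1 w) (Φ₂ p.2 w)) h
        = (haarConst53 μ μc lv : ℂ)⁻¹
          * T5.conv μ (H305.pure305 (T₁ p.1) (φ₁ p.1) (Φ₁ p.1))
              (H305.pure305 (T₂ p.2) (φ₂ p.2) (Φ₂ p.2)) h := by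
    intro p h
    rw [hmem p h, ← mul_assoc, inv_mul_cancel₀ hcne, one_mul]
  -- PT.3
  obtain ⟨hA, hB, C, hC, hCs⟩ := H634.convAvgC634 F μ hμ Ω₁ inferInstance inferInstance
    inferInstance inferInstance inferInstance inferInstance ν₁ inferInstance
    Ω₂ inferInstance inferInstance inferInstance inferInstance inferInstance inferInstance ν₂
    inferInstance
    (fun a => H305.pure305 (T₁ a) (φ₁ a) (Φ₁ a)) (fun b => H305.pure305 (T₂ b) (φ₂ b) (Φ₂ b))
    hF₁.cont hF₂.cont hF₁.supp hF₂.supp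
  refine ⟨?_, ?_, ?_, ?_⟩
  · intro p
    have h1 := H872.isTestFn_conv872 hμ h𝔫 (hF₁.test p.1) (hF₂.test p.2)
    have h2 := isTestFn_const_mul53 (haarConst53 μ μc lv : ℂ)⁻¹ h1
    have e : H305.pure305 (T₁ p.1 ∪ T₂ p.2) (χ p)
          (fun w => @T6.convInt _ _ (borel _) μc (Φ₁ p.1 w) (Φ₂ p.2 w))
        = fun h => (haarConst53 μ μc lv : ℂ)⁻¹
          * T5.conv μ (H305.pure305 (T₁ p.1) (φ₁ p.1) (Φ₁ p.1))
              (H305.pure305 (T₂ p.2) (φ₂ p.2) (Φ₂ p.2)) h :=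
      funext fun h => hmem' p h
    rw [e]
    exact h2
  · have e : (fun q : (Ω₁ × Ω₂) × G F =>
          H305.pure305 (T₁ q.1.1 ∪ T₂ q.1.2) (χ q.1)
            (fun w => @T6.convInt _ _ (borel _) μc (Φ₁ q.1.1 w) (Φ₂ q.1.2 w)) q.2)
        = fun q : (Ω₁ × Ω₂) × G F => (haarConst53 μ μc lv : ℂ)⁻¹
          * T5.conv μ (H305.pure305 (T₁ q.1.1) (φ₁ q.1.1) (Φ₁ q.1.1))
              (H305.pure305 (T₂ q.1.2) (φ₂ q.1.2) (Φ₂ q.1.2)) q.2 :=
      funext fun q => hmem' q.1 q.2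
    rw [e]
    exact continuous_const.mul hB
  · refine ⟨C, hC, fun p h hne => hCs p h ?_⟩
    intro h0
    apply hne
    rw [hmem' p h, h0, mul_zero]
  · intro h
    rw [hA h]
    rw [integral_congr_ae (Filter.Eventually.of_forall fun p => hmem p h)]
    rw [integral_const_mul]
    have key := integral_smul_nnreal_measure (μ := ν₁.prod ν₂)
      (fun p : Ω₁ × Ω₂ => H305.pure305 (T₁ p.1 ∪ T₂ p.2) (χ p)
        (fun w => @T6.convInt _ _ (borel _) μc (Φ₁ p.1 w) (Φ₂ p.2 w)) h)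
      (⟨haarConst53 μ μc lv, hcpos.le⟩ : NNReal)
    rw [key]
    rfl

end Fermat.Agent.LT.T7.H53

end
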